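import Fermat.Agent.M59.S38g.MachSeams

/-!
M59 / box [C + S38g], cell [HARD], ORDINARY MODE (`p ∥ N`): THE CUT (helper14, box owner).
Prefix `m59mo_`.  Leaf 13 of the master table (`m59m_MachOrd_stmt Peu`, `M59/S38g/Seams.lean`).

THE IDEA.  At `p ∥ N` the Hecke–Galois data of all the Taylor–Wiles levels are ORDINARY at `p`
(banked S33 = `s33z_main`; helper24's `m59rpk_ord_top`, `M59/Rp/OrdTop.lean`).  If `ρ̄` is
TRES RAMIFIEE at `p` in the NATIVE sense below (`m59mo_IsTres`: some `τ` in the inertia group at `p`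
which fixes every `p`-power root of every inertia-fixed unit has `ρ̄(τ) ≠ 1`), helper24's relation
(R1) `(z² - 1) · v = 0` (`m59rpk_top` / `m59rpk_R1`, `M59/Rp/KumTop.lean`) has `v` a UNIT, hence
`z² = 1`: every ordinary lift of `ρ̄` with cyclotomic determinant over a complete noetherian local
ring is STRICTLY ordinary (Prelude `IsStrictOrdinaryAt`).  The strict-ordinary local condition has the
count `h¹ ≤ h⁰ + 1` by the BANKED `s56o_final : s56a_LocPOrd_stmt` (S56/LocP/Final.lean), with NO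
condition on `ρ̄`.  So the machine runs with `Pp := IsStrictOrdinaryAt p` in helper21's generic
`m59c_IsType p Pp Smin Th Q H` / `m59c_finrank_le` (`M59/C/Present.lean`) exactly as the flat machine
runs with `Pp := IsFlatAt p`; NEITHER `p`-newness at the auxiliary levels NOR [STRICT-p] NOR a
"flat ⟹ peu" dictionary is needed.  Block [E] needs nothing new: the proofs of `m59mb_m2lg` /
`m59epw_sbi_M2LG4` never use `¬ p ∣ N` (`m59mo_m2lg`, `M59/S38g/Ord/M2LG.lean`).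

CONTENTS (statements + the generic wirings, twins of `M59/S38g/MachSeams.lean`):
* `m59mo_IsTres p ρ̄` : the native "très ramifiée at `p`".
* `m59mo_Ctx p N q S θ ρ̄ Sram` : THE CONTEXT of the ordinary machine = `m59m_Ctx` with `p ∣ N`
  (`N` squarefree: `p ∥ N`), `p ∉ Sram`, `ρ̄` ordinary at `p` (Prelude form on
  `ofResidualGaloisRep ρ̄`) and très ramifiée at `p`.
* seams `m59mo_Machine_stmt`, `m59mo_End_stmt`, `m59mo_Patch_stmt`, `m59mo_PatchLv_stmt` (twins of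
  the flat ones in the context `m59mo_Ctx`), `m59mo_M2LG_stmt` (= `m59m_M2LG_stmt` WITHOUT `¬ p ∣ N`).
* PROVED: `m59mo_patch_of_lvStmt`, `m59mo_end_of_patch`, `m59mo_machine_of_end`,
  `m59mo_machine_of_lvStmt : m59mo_PatchLv_stmt → m59mo_Machine_stmt`.

What is left after this file: **[C-top-ord]** `m59mo_PatchLv_stmt` from `m59mo_M2LG_stmt` (twin of
helper21's `m59ct_patchLv`, types strict-ordinary) and the dictionary **[TRES-DICT]**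
(`M59/S38g/Ord/Entry.lean`).
-/

set_option autoImplicit false
set_option linter.style.haveILetI false
set_option linter.unusedSectionVars false

open Polynomial CuspForm IsLocalRing Fermat.Agent.TW Fermat.Agent.S53 Fermat.Agent.JT3

namespace Fermat.Agent.M59

/-- **`ρ̄` is très ramifiée at `p`** (native form): over every place `P` of `ℚ̄` above `p` there is an
element `τ` of the inertia group which fixes every `γ` with `γ, γ⁻¹ ∈ P` one of whose `p`-power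
powers is fixed by inertia (all the `p`-power roots of the units of the maximal unramified extension,
in particular `μ_{p^∞}`: the first clause of (K3), `m59rpk_tauV`), and `ρ̄(τ) ≠ 1`. -/
def m59mo_IsTres {k : Type} [Field k] (p : ℕ) (ρbar : ResidualGaloisRep k) : Prop :=
  ∀ P : ValuationSubring twt_Qb, P.LiesOverPrime p →
    ∃ τ : twt_G, τ ∈ P.inertiaSubgroupIn ℚ ∧
      (∀ (n : ℕ) (γ : twt_Qb), γ ∈ P → γ⁻¹ ∈ P →
        (∀ s ∈ P.inertiaSubgroupIn ℚ, s (γ ^ p ^ n) = γ ^ p ^ n) → τ γ = γ) ∧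
      ρbar.ρ τ ≠ 1

/-- **the context of the ordinary machine** (twin of `m59m_Ctx` at `p ∥ N`). -/
structure m59mo_Ctx (p : ℕ) {k : Type} [Field k] (N q : ℕ) [NeZero N] (S : Finset ℕ)
    (θ : heckeAlgebra N 2 (↑S : Set ℕ) →+* k) (ρbar : ResidualGaloisRep k) (Sram : Finset ℕ) :
    Prop where
  /-- `p ∈ {3, 5}` -/
  hp : p = 3 ∨ p = 5
  /-- the level is squarefree -/
  sq : Squarefree N
  /-- ordinary mode: `p` divides the level (exactly, as `N` is squarefree) -/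
  pN : p ∣ N
  /-- for `p = 3` the level has a prime divisor `≡ 2 mod 3` -/
  rigid : m59ep_Rigid p N
  pS : p ∈ S
  NS : ∀ ℓ : ℕ, ℓ.Prime → ℓ ∣ N → ℓ ∈ S
  compat : twt_Compat θ ρbar
  nonEis : twt_NonEis θ
  abs : ρbar.IsAbsolutelyIrreducible
  tw : twt_TWHyp ρbar
  /-- `ρ̄` is ordinary at `p` (Prelude form) -/
  ordres : (GaloisRepAdic.ofResidualGaloisRep ρbar).IsOrdinaryAt p
  /-- `ρ̄` is très ramifiée at `p` -/
  tres : m59mo_IsTres p ρbar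
  /-- `Sram` is EXACTLY the set of primes `≠ p` at which `ρ̄` is ramified -/
  ram : ∀ ℓ : ℕ, ℓ.Prime → ℓ ≠ p → (ℓ ∈ Sram ↔ ¬ ρbar.IsUnramifiedAt ℓ)
  /-- the ramified primes divide the level -/
  ramN : ∀ ℓ ∈ Sram, ℓ.Prime ∧ ℓ ∣ N
  /-- `p` is not one of them -/
  pram : p ∉ Sram
  /-- the unramified primes `≡ 1 mod p` of the level are hard -/
  hard : ∀ ℓ : ℕ, ℓ.Prime → ℓ ∣ N → ℓ ∉ Sram → ℓ % p = 1 → twt_FrobScalar ρbar ℓ
  /-- the other unramified primes `≠ p` of the level are harmless -/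
  harmless : ∀ ℓ : ℕ, ℓ.Prime → ℓ ≠ p → ℓ ∣ N → ℓ ∉ Sram → ℓ % p ≠ 1 → m59m_IsHarmless p ρbar ℓ
  /-- the hard prime to be removed -/
  qp : q.Prime
  qN : q ∣ N
  qram : q ∉ Sram
  q1 : q % p = 1

section ctx

variable {p : ℕ} {k : Type} [Field k] {N q : ℕ} [NeZero N] {S : Finset ℕ}
  {θ : heckeAlgebra N 2 (↑S : Set ℕ) →+* k} {ρbar : ResidualGaloisRep k} {Sram : Finset ℕ}

theorem m59mo_Ctx.p_ne_two (h : m59mo_Ctx p N q S θ ρbar Sram) : p ≠ 2 := by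
  rcases h.hp with rfl | rfl <;> norm_num

theorem m59mo_Ctx.p_prime (h : m59mo_Ctx p N q S θ ρbar Sram) : p.Prime := by
  rcases h.hp with rfl | rfl <;> norm_num

theorem m59mo_Ctx.q_ne_p (h : m59mo_Ctx p N q S θ ρbar Sram) : q ≠ p := by
  intro e
  have h1 := h.q1
  rw [e, Nat.mod_self] at h1
  exact zero_ne_one h1

theorem m59mo_Ctx.q_unram (h : m59mo_Ctx p N q S θ ρbar Sram) : ρbar.IsUnramifiedAt q := by
  by_contra hr
  exact h.qram ((h.ram q h.qp h.q_ne_p).mpr hr)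

theorem m59mo_Ctx.q_scalar (h : m59mo_Ctx p N q S θ ρbar Sram) : twt_FrobScalar ρbar q :=
  h.hard q h.qp h.qN h.qram h.q1

/-- `p ∥ N`. -/
theorem m59mo_Ctx.p_exact (h : m59mo_Ctx p N q S θ ρbar Sram) : p ∣ N ∧ ¬ p ^ 2 ∣ N := by
  refine ⟨h.pN, fun h2 => ?_⟩
  have h3 : IsUnit p := h.sq p (by rwa [pow_two] at h2)
  exact h.p_prime.one_lt.ne' (Nat.isUnit_iff.mp h3)

end ctx

/-- the hard primes are `≠ p` and `≡ 1 mod p` in the form used by the tame data of main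
(twin of `m59m_Th_spec`; no hypothesis on `p` and `N`). -/
theorem m59mo_Th_spec {p N : ℕ} (hp : p.Prime) (hN : N ≠ 0) (Sram : Finset ℕ) :
    ∀ ℓ ∈ m59m_Th p N Sram, (ℓ : ℕ) ≠ p ∧ p ∣ (ℓ : ℕ) - 1 := by
  intro ℓ hℓ
  obtain ⟨-, -, h1⟩ := (m59m_mem_Th hN Sram ℓ).mp hℓ
  refine ⟨fun h => ?_, ?_⟩
  · rw [h, Nat.mod_self] at h1
    exact zero_ne_one h1
  · have h3 : (ℓ : ℕ) % p = 1 % p := by rw [h1, Nat.mod_eq_of_lt hp.one_lt]
    exact (Nat.modEq_iff_dvd' ℓ.2.one_lt.le).mp h3.symm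

/-- **[MACH-native], ordinary mode** (twin of `m59m_Machine_stmt`). -/
def m59mo_Machine_stmt : Prop :=
  ∀ (p : ℕ) [Fact p.Prime] (k : Type) [Field k] [Finite k] [CharP k p] (N q : ℕ) [NeZero N]
    (S : Finset ℕ) (θ : heckeAlgebra N 2 (↑S : Set ℕ) →+* k) (ρbar : ResidualGaloisRep k)
    (Sram : Finset ℕ), m59mo_Ctx p N q S θ ρbar Sram → m59m_LiftOf p θ q

/-- **[END-native], ordinary mode** (twin of `m59m_End_stmt`). -/
def m59mo_End_stmt : Prop :=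
  ∀ (p : ℕ) [Fact p.Prime] (k : Type) [Field k] [Finite k] [CharP k p] (N q : ℕ) [NeZero N]
    (S : Finset ℕ) (θ : heckeAlgebra N 2 (↑S : Set ℕ) →+* k) (ρbar : ResidualGaloisRep k)
    (Sram : Finset ℕ), m59mo_Ctx p N q S θ ρbar Sram →
  ∀ (𝒪 : Type) [CommRing 𝒪] [IsDomain 𝒪] [IsDiscreteValuationRing 𝒪]
    [IsAdicComplete (maximalIdeal 𝒪) 𝒪] [Finite (ResidueField 𝒪)] [CharZero 𝒪]
    [Algebra k (ResidueField 𝒪)], m59m_IsCoef p k 𝒪 →
    ∃ (T : Type) (_ : CommRing T) (_ : IsLocalRing T) (_ : IsNoetherianRing T)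
      (_ : IsAdicComplete (maximalIdeal T) T) (_ : Algebra 𝒪 T) (_ : IsLocalHom (algebraMap 𝒪 T))
      (_ : Module.Finite 𝒪 T) (_ : Module.Free 𝒪 T)
      (H : HeckeGaloisRepDatum N (↑S : Set ℕ) 𝒪 ((algebraMap k (ResidueField 𝒪)).comp θ) T)
      (𝔓 : Ideal T),
      𝔓.IsPrime ∧ (∀ x : 𝒪, algebraMap 𝒪 T x ∈ 𝔓 → x = 0) ∧
      ∀ A : ValuationSubring twt_Qb, A.LiesOverPrime q → ∀ σ ∈ A.inertiaSubgroupIn ℚ,
        ∀ v : H.ρ.V, H.ρ.ρ σ v - v ∈ 𝔓 • (⊤ : Submodule T H.ρ.V)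

/-- **[PATCH-native], ordinary mode** (twin of `m59m_Patch_stmt`). -/
def m59mo_Patch_stmt : Prop :=
  ∀ (p : ℕ) [Fact p.Prime] (k : Type) [Field k] [Finite k] [CharP k p] (N q : ℕ) [NeZero N]
    (S : Finset ℕ) (θ : heckeAlgebra N 2 (↑S : Set ℕ) →+* k) (ρbar : ResidualGaloisRep k)
    (Sram : Finset ℕ) (hC : m59mo_Ctx p N q S θ ρbar Sram),
  ∀ (𝒪 : Type) [CommRing 𝒪] [IsDomain 𝒪] [IsDiscreteValuationRing 𝒪]
    [IsAdicComplete (maximalIdeal 𝒪) 𝒪] [Finite (ResidueField 𝒪)] [CharZero 𝒪]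
    [Algebra k (ResidueField 𝒪)], m59m_IsCoef p k 𝒪 →
    ∃ (T : Type) (_ : CommRing T) (_ : IsLocalRing T) (_ : IsNoetherianRing T)
      (_ : IsAdicComplete (maximalIdeal T) T) (_ : Algebra 𝒪 T) (_ : IsLocalHom (algebraMap 𝒪 T))
      (_ : Module.Finite 𝒪 T) (_ : Module.Free 𝒪 T)
      (H : HeckeGaloisRepDatum N (↑S : Set ℕ) 𝒪 ((algebraMap k (ResidueField 𝒪)).comp θ) T)
      (𝔓 : Ideal T),
      𝔓.IsPrime ∧
      (∃ lam : 𝒪, maximalIdeal 𝒪 = Ideal.span {lam} ∧ algebraMap 𝒪 T lam ∉ 𝔓) ∧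
      ∀ v : H.ρ.V, H.ρ.ρ (twc_tg_gsigma ⟨q, hC.qp⟩) v - v ∈ 𝔓 • (⊤ : Submodule T H.ρ.V)

/-- **[PATCH-LV-native], ordinary mode** (twin of `m59m_PatchLv_stmt`) = THE TARGET OF THE
STRICT-ORDINARY TWIN OF helper21's `m59ct_patchLv`. -/
def m59mo_PatchLv_stmt : Prop :=
  ∀ (p : ℕ) [Fact p.Prime] (k : Type) [Field k] [Finite k] [CharP k p] (N q : ℕ) [NeZero N]
    (S : Finset ℕ) (θ : heckeAlgebra N 2 (↑S : Set ℕ) →+* k) (ρbar : ResidualGaloisRep k)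
    (Sram : Finset ℕ) (hC : m59mo_Ctx p N q S θ ρbar Sram),
  ∀ (𝒪 : Type) [CommRing 𝒪] [IsDomain 𝒪] [IsDiscreteValuationRing 𝒪]
    [IsAdicComplete (maximalIdeal 𝒪) 𝒪] [Finite (ResidueField 𝒪)] [CharZero 𝒪]
    [Algebra k (ResidueField 𝒪)], m59m_IsCoef p k 𝒪 →
    ∃ (T : Type) (_ : CommRing T) (_ : IsLocalRing T) (_ : IsNoetherianRing T)
      (_ : IsAdicComplete (maximalIdeal T) T) (_ : Algebra 𝒪 T) (_ : IsLocalHom (algebraMap 𝒪 T))
      (_ : Module.Finite 𝒪 T) (_ : Module.Free 𝒪 T)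
      (H : HeckeGaloisRepDatum N (↑S : Set ℕ) 𝒪 ((algebraMap k (ResidueField 𝒪)).comp θ) T)
      (fr : FramedRep T) (lam : 𝒪) (Th : Type) (_ : Fintype Th) (a : Th → 𝒪) (n : Th → ℕ)
      (q₀ : Th) (g rr d : ℕ)
      (j : T →+* Matrix (Fin d) (Fin d) (MvPowerSeries (Fin rr) 𝒪 ⧸ twds_a 𝒪 rr)),
      H.ρ.IsEquiv fr.toGaloisRepAdic ∧ maximalIdeal 𝒪 = Ideal.span {lam} ∧
      (∀ t, n t % p = 1) ∧ (∀ t, a t ^ 2 - (n t : 𝒪) ∈ maximalIdeal 𝒪) ∧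
      n q₀ ≠ 0 ∧ n q₀ ≠ 1 ∧ rr = 3 * Fintype.card Th + g ∧ 0 < d ∧
      ∀ m, Nonempty (twc_LvIn2 𝒪 lam rr d g (Th × Fin 2 × Fin 2 × Fin 2)
        (twb_r8_Junip 𝒪 (Fin g ⊕ Fin g) p a n) (twb_r8_Jhash 𝒪 (Fin g) p a n)
        (twds_a 𝒪 rr) (twds_b 𝒪 rr (p ^ m)) (twds_b_le_a rr (p ^ m)) T j
        (fun i k => (q₀, 0, i, k)) (fun i k => (fr (twc_tg_gsigma ⟨q, hC.qp⟩) - 1) i k))

/-- **[E + A]-native at ANY squarefree rigid level** (`p ∣ N` allowed) = `m59m_M2LG_stmt` without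
its hypothesis `¬ p ∣ N` (which the landed proofs `m59mb_m2lg`, `m59epw_sbi_M2LG4` never use:
[EP-TWIN] dropped it, `M59/EP/Twin/SeamDefs.lean`).  PROVED: `m59mo_m2lg`, `M59/S38g/Ord/M2LG.lean`. -/
def m59mo_M2LG_stmt : Prop :=
  ∀ (p : ℕ) [Fact p.Prime], p = 3 ∨ p = 5 →
  ∀ (𝒪 : Type) [CommRing 𝒪] [IsDomain 𝒪] [IsDiscreteValuationRing 𝒪]
    [IsAdicComplete (maximalIdeal 𝒪) 𝒪] [Finite (ResidueField 𝒪)] [CharZero 𝒪],
    (p : 𝒪) ∈ maximalIdeal 𝒪 →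
  ∀ (N : ℕ) [NeZero N], Squarefree N → m59ep_Rigid p N →
  ∀ (S : Finset ℕ), p ∈ S → (∀ ℓ : ℕ, ℓ.Prime → ℓ ∣ N → ℓ ∈ S) →
  ∀ (θ : heckeAlgebra N 2 (↑S : Set ℕ) →+* ResidueField 𝒪)
    (ρbar : ResidualGaloisRep (ResidueField 𝒪)),
    twt_Compat θ ρbar → ρbar.IsAbsolutelyIrreducible →
    ∃ B : twe_Base 𝒪 N S θ,
      ∀ (Q : Finset ℕ) [NeZero (twe_Nbal N Q ∅)], (∀ t ∈ Q, t ∉ S) → twe_IsTWSet θ p Q →
        Q.Nonempty →
        ∀ (Th : Finset ℕ) [NeZero (twe_Nbal N Q Th)],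
          (∀ ℓ ∈ Th, ℓ.Prime ∧ ℓ ∣ N ∧ ℓ ≠ 2 ∧ ℓ % p = 1) → Th.Nonempty →
          ∃ L : twe_Level B p Q, ∃ Bg : twe_Big L Th, Bg.IsLG2

/-- the general form gives the flat one. -/
theorem m59mo_m2lg_flat (h : m59mo_M2LG_stmt) : m59m_M2LG_stmt := by
  intro p _ hp 𝒪 _ _ _ _ _ _ hp𝒪 N _ hsq _ hrig S hpS hNS θ ρbar hcompat hirr
  exact h p hp 𝒪 hp𝒪 N hsq hrig S hpS hNS θ ρbar hcompat hirr

/-- **[PATCH] from [PATCH-LV], ordinary mode** (twin of `m59m_patch_of_lvStmt`). -/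
theorem m59mo_patch_of_lvStmt (hD : m59mo_PatchLv_stmt) : m59mo_Patch_stmt := by
  intro p hpF k _ _ _ N q _ S θ ρbar Sram hC 𝒪 _ _ _ _ _ _ _ hco
  obtain ⟨T, _, _, _, _, _, _, _, _, H, fr, lam, Th, _, a, n, q₀, g, rr, d, j, hfr, hlam, hn, han,
    hq0, hq1, hr, hd, hI⟩ := hD p k N q S θ ρbar Sram hC 𝒪 hco
  obtain ⟨hp𝒪, ⟨ζ, hζ⟩, -⟩ := hco
  obtain ⟨𝔓, h⟩ := twt_patch_of_lv hlam hpF.out hC.p_ne_two hp𝒪 hζ a n hn han q₀ hq0 hq1 g rr hr
    hd H.ρ fr hfr (twc_tg_gsigma ⟨q, hC.qp⟩) (fun m => (hI m).some)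
  exact ⟨T, inferInstance, inferInstance, inferInstance, inferInstance, inferInstance,
    inferInstance, inferInstance, inferInstance, H, 𝔓, h⟩

/-- **[END] from [PATCH], ordinary mode** (twin of `m59m_end_of_patch`: the inertia bridge). -/
theorem m59mo_end_of_patch (hP : m59mo_Patch_stmt) : m59mo_End_stmt := by
  intro p _ k _ _ _ N q _ S θ ρbar Sram hC 𝒪 _ _ _ _ _ _ _ hco
  obtain ⟨T, _, _, _, _, _, _, _, _, H, 𝔓, h𝔓, ⟨lam, hlam, hlam𝔓⟩, hσ⟩ :=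
    hP p k N q S θ ρbar Sram hC 𝒪 hco
  haveI := h𝔓
  refine ⟨T, inferInstance, inferInstance, inferInstance, inferInstance, inferInstance,
    inferInstance, inferInstance, inferInstance, H, 𝔓, h𝔓,
    twt_eop_inj 𝔓 lam hlam hlam𝔓, ?_⟩
  have hp : p.Prime := Fact.out
  have hN0 : N ≠ 0 := NeZero.ne N
  have hTh := m59mo_Th_spec hp hN0 Sram
  have hqTh : (⟨q, hC.qp⟩ : Nat.Primes) ∈ m59m_Th p N Sram :=
    (m59m_mem_Th hN0 Sram _).mpr ⟨hC.qN, hC.qram, hC.q1⟩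
  have hpT : (p : T) ∈ maximalIdeal T := by
    have := map_nonunit (algebraMap 𝒪 T) (p : 𝒪) hco.1
    rwa [map_natCast] at this
  -- the residual representation of `H` is unramified at `q`
  have hres : H.ρ.residual.IsUnramifiedAt q := by
    refine twt_re_datum_unram H (ρbar.baseChange (ResidueField 𝒪))
      (twt_ci_compat ρbar θ hC.compat) q ?_
    exact (twt_ci_unram_iff ρbar q).mpr hC.q_unram
  exact twib_out_hI (twib_td p (m59m_Th p N Sram) hTh)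
    (twib_td_inertiaGen p (m59m_Th p N Sram) hTh) hqTh H.ρ hpT hres 𝔓 hσ

/-- **[MACH] from [END], ordinary mode** (twin of `m59m_machine_of_end`). -/
theorem m59mo_machine_of_end (hE : m59mo_End_stmt) : m59mo_Machine_stmt := by
  intro p _ k _ _ _ N q _ S θ ρbar Sram hC
  obtain ⟨𝒪, _, _, _, _, _, _, _, hp𝒪, hζ, hquad⟩ := twm0_coef p k
  obtain ⟨T, _, _, _, _, _, _, _, _, H, 𝔓, h𝔓, hinj, hI⟩ :=
    hE p k N q S θ ρbar Sram hC 𝒪 ⟨hp𝒪, hζ, hquad⟩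
  obtain ⟨𝒪', _, _, _, _, _, _, _, χ, ρ, hp𝒪', hχθ, hχρ, hρabs, hρq⟩ :=
    twt_out2 hC.p_ne_two hp𝒪 H q 𝔓 h𝔓 hinj hI
  letI : Algebra k (ResidueField 𝒪') :=
    ((algebraMap (ResidueField 𝒪) (ResidueField 𝒪')).comp
      (algebraMap k (ResidueField 𝒪))).toAlgebra
  refine ⟨𝒪', inferInstance, inferInstance, inferInstance, inferInstance, inferInstance,
    inferInstance, inferInstance, χ, ρ, hp𝒪', ?_, hχρ, hρabs, hρq⟩
  intro t
  rw [hχθ t]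
  rfl

/-- **[MACH] from [PATCH-LV], ordinary mode.** -/
theorem m59mo_machine_of_lvStmt (hD : m59mo_PatchLv_stmt) : m59mo_Machine_stmt :=
  m59mo_machine_of_end (m59mo_end_of_patch (m59mo_patch_of_lvStmt hD))

end Fermat.Agent.M59
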