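import Mathlib
import Fermat.Prelude.Def_GaloisRep_StrictOrdinary
import Fermat.Agent.M59.Rp.KumR1
import Fermat.Agent.M59.S38g.Ord.Seams

/-!
M59 / box [C + S38g], ordinary mode (helper14), prefix `m59mo_`.

**`m59mo_strict_of_tres`** : `R` a local ring with `R / 𝔪ⁿ` finite and `⋂ 𝔪ⁿ = 0`, `ρ` over `R` with
cyclotomic determinant, ORDINARY at `p` (Prelude `IsOrdinaryAt`), whose residual representation is
TRES RAMIFIEE at `p` (`m59mo_IsTres`, `M59/S38g/Ord/Seams.lean`).  Then `ρ` is STRICTLY ordinary at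
`p` (Prelude `IsStrictOrdinaryAt`).

Proof: in an ordinary basis `b` at `P | p`: `ρ σ = (x σ, *; 0, z σ)` on `D_P`, `z = 1` on `I_P`.
Take `τ ∈ I_P` of `m59mo_IsTres`: `ρ τ = (1, v; 0, 1)` (`det ρ τ = 1` since `τ` fixes `μ_{p^∞}`), and
`v` is a unit because `ρ̄(τ) ≠ 1`.  helper24's (R1) `m59rpk_R1` : `(z σ² - 1) v = 0`, so `z σ² = 1`
and `x σ = det ρ σ · z σ`, which is the strictness clause (`x - a z = (x z - a) z`).
-/

set_option autoImplicit false
set_option linter.unusedSectionVars false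
set_option linter.style.haveILetI false
set_option linter.unusedVariables false

noncomputable section

namespace Fermat.Agent.M59

open IsLocalRing TensorProduct Fermat.Agent.TW

/-- an endomorphism congruent to `1` modulo `𝔪` reduces to `1`. -/
theorem m59mo_residual_one {R : Type} [CommRing R] [IsLocalRing R] (ρ : GaloisRepAdic R)
    (τ : twt_G) (h : ∀ w : ρ.V, ρ.ρ τ w - w ∈ maximalIdeal R • (⊤ : Submodule R ρ.V)) :
    ρ.residual.ρ τ = 1 := by
  have hkill : ∀ x ∈ maximalIdeal R • (⊤ : Submodule R ρ.V),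
      ∀ c : ResidueField R, c ⊗ₜ[R] x = 0 := by
    intro x hx c
    refine Submodule.smul_induction_on
      (p := fun x => c ⊗ₜ[R] x = (0 : ResidueField R ⊗[R] ρ.V)) hx ?_ ?_
    · intro a ha w _
      rw [TensorProduct.tmul_smul, TensorProduct.smul_tmul', Algebra.smul_def,
        ResidueField.algebraMap_eq, (residue_eq_zero_iff a).mpr ha,
        zero_mul, TensorProduct.zero_tmul]
    · intro x y hx hy
      rw [TensorProduct.tmul_add, hx, hy, add_zero]
  refine LinearMap.ext fun w => ?_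
  show (ρ.ρ τ).baseChange (ResidueField R) w = w
  induction w using TensorProduct.induction_on with
  | zero => rw [map_zero]
  | tmul c v =>
    rw [LinearMap.baseChange_tmul, ← sub_eq_zero, ← TensorProduct.tmul_sub]
    exact hkill _ (h v) c
  | add x y hx hy => rw [map_add, hx, hy]

/-- **ordinary + très ramifiée ⟹ strictly ordinary.** -/
theorem m59mo_strict_of_tres {p : ℕ} [hp : Fact p.Prime] {R : Type} [CommRing R] [IsLocalRing R]
    (hfin : ∀ n : ℕ, Finite (R ⧸ maximalIdeal R ^ n))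
    (hsep : ∀ x : R, (∀ n : ℕ, x ∈ maximalIdeal R ^ n) → x = 0)
    (ρ : GaloisRepAdic R) (hdet : ρ.DetIsCyclotomic p) (hord : ρ.IsOrdinaryAt p)
    (htres : m59mo_IsTres p ρ.residual) : ρ.IsStrictOrdinaryAt p := by
  classical
  have hp0 : p ≠ 0 := hp.out.ne_zero
  refine ⟨hdet.1, fun P hP => ?_⟩
  obtain ⟨L, ⟨b, rfl⟩, hD, hI⟩ := hord P hP
  obtain ⟨τ, hτI, hτ1, hτne⟩ := htres P hP
  have hstab : ∀ σ ∈ P.decompositionSubgroup ℚ, ρ.ρ σ (b 0) ∈ Submodule.span R {b 0} :=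
    fun σ hσ => hD σ hσ (b 0) (Submodule.mem_span_singleton_self _)
  -- the matrices
  set M : twt_G → Matrix (Fin 2) (Fin 2) R := fun σ => LinearMap.toMatrix b b (ρ.ρ σ) with hM
  have hMapp : ∀ σ i j, M σ i j = b.repr (ρ.ρ σ (b j)) i := fun σ i j =>
    LinearMap.toMatrix_apply b b (ρ.ρ σ) i j
  have hspan : ∀ w : ρ.V, w ∈ Submodule.span R {b 0} → b.repr w 1 = 0 := by
    intro w hw
    obtain ⟨a, rfl⟩ := Submodule.mem_span_singleton.1 hw
    rw [map_smul, Module.Basis.repr_self, Finsupp.smul_apply, Finsupp.single_apply]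
    simp
  have hD10 : ∀ σ ∈ P.decompositionSubgroup ℚ, M σ 1 0 = 0 := fun σ hσ => by
    rw [hMapp]
    exact hspan _ (hstab σ hσ)
  have hI10 : ∀ s ∈ P.inertiaSubgroupIn ℚ, M s 1 0 = 0 := by
    intro s hs
    have h := hspan _ (hI s hs (b 0))
    rw [map_sub, Finsupp.sub_apply, Module.Basis.repr_self, Finsupp.single_apply] at h
    rw [hMapp]
    simpa using h
  have hI11 : ∀ s ∈ P.inertiaSubgroupIn ℚ, M s 1 1 = 1 := by
    intro s hs
    have h := hspan _ (hI s hs (b 1))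
    rw [map_sub, Finsupp.sub_apply, Module.Basis.repr_self, Finsupp.single_apply] at h
    rw [hMapp]
    simpa [sub_eq_zero] using h
  have hdetM : ∀ σ, M σ 1 0 = 0 → LinearMap.det (ρ.ρ σ) = M σ 0 0 * M σ 1 1 := by
    intro σ h
    rw [← LinearMap.det_toMatrix b, Matrix.det_fin_two]
    show M σ 0 0 * M σ 1 1 - M σ 0 1 * M σ 1 0 = _
    rw [h, mul_zero, sub_zero]
  have hpn : ∀ n : ℕ, Ideal.span {((p ^ n : ℕ) : R)} ≤ maximalIdeal R ^ n := by
    intro n
    rw [Ideal.span_le, Set.singleton_subset_iff, Nat.cast_pow]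
    exact Ideal.pow_mem_pow hdet.1 n
  -- expansion of `ρ σ (b j)` in the basis
  have hexp : ∀ σ (j : Fin 2), ρ.ρ σ (b j) = M σ 0 j • b 0 + M σ 1 j • b 1 := by
    intro σ j
    conv_lhs => rw [← b.sum_repr (ρ.ρ σ (b j))]
    rw [Fin.sum_univ_two, hMapp, hMapp]
  -- `τ` fixes the `p`-power roots of unity
  have hτμ : ∀ (n : ℕ) (μ : twt_Qb), μ ^ p ^ n = 1 → τ μ = μ := by
    intro n μ hμ
    have hn0 : p ^ n ≠ 0 := pow_ne_zero _ hp0
    refine hτ1 n μ (m59rpk_mem_of_pow_mem P hn0 (by rw [hμ]; exact P.one_mem))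
      (m59rpk_mem_of_pow_mem P hn0 (by rw [inv_pow, hμ, inv_one]; exact P.one_mem)) ?_
    intro s _
    rw [hμ, map_one]
  -- `x τ = 1`
  have hxτ : M τ 0 0 = 1 := by
    rw [← sub_eq_zero]
    refine hsep _ fun n => ?_
    have h1 : LinearMap.det (ρ.ρ τ) - ((1 : ℕ) : R) ∈ Ideal.span {((p ^ n : ℕ) : R)} :=
      hdet.2 n τ 1 (fun μ hμ => by rw [pow_one]; exact hτμ n μ hμ)
    rw [hdetM τ (hI10 τ hτI), hI11 τ hτI, mul_one, Nat.cast_one] at h1
    exact hpn n h1
  -- `v` is a unit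
  have hv : IsUnit (M τ 0 1) := by
    by_contra hnu
    have hvm : M τ 0 1 ∈ maximalIdeal R := (mem_maximalIdeal _).mpr hnu
    apply hτne
    refine m59mo_residual_one ρ τ fun w => ?_
    have hw : w = b.repr w 0 • b 0 + b.repr w 1 • b 1 := by
      conv_lhs => rw [← b.sum_repr w]
      rw [Fin.sum_univ_two]
    have h2 : ρ.ρ τ w - w = (b.repr w 1 * M τ 0 1) • b 0 := by
      conv_lhs => rw [hw]
      rw [map_add, map_smul, map_smul, hexp τ 0, hexp τ 1, hxτ, hI10 τ hτI, hI11 τ hτI]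
      simp only [one_smul, zero_smul, add_zero, smul_add, smul_smul]
      abel
    rw [h2]
    exact Submodule.smul_mem_smul (Ideal.mul_mem_left _ _ hvm) Submodule.mem_top
  refine ⟨_, ⟨b, rfl⟩, hD, hI, fun σ hσ => ?_⟩
  have hR1 : (M σ 1 1 ^ 2 - 1) * M τ 0 1 = 0 := by
    have := m59rpk_R1 hfin hsep p ρ hdet P hP b hstab hI τ hτI hτ1 σ hσ
    rwa [← hMapp, ← hMapp] at this
  have hz2 : M σ 1 1 ^ 2 = 1 := by
    have h1 : M σ 1 1 ^ 2 - 1 = 0 := (hv.mul_left_eq_zero).mp hR1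
    exact sub_eq_zero.mp h1
  refine ⟨M σ 0 0, M σ 1 1, ?_, ?_, ?_⟩
  · intro w hw
    obtain ⟨a, rfl⟩ := Submodule.mem_span_singleton.1 hw
    rw [map_smul, hexp σ 0, hD10 σ hσ, zero_smul, add_zero, smul_smul, smul_smul, mul_comm]
  · intro w
    have hw : w = b.repr w 0 • b 0 + b.repr w 1 • b 1 := by
      conv_lhs => rw [← b.sum_repr w]
      rw [Fin.sum_univ_two]
    have h2 : ρ.ρ σ w - M σ 1 1 • w =
        (b.repr w 0 * M σ 0 0 + b.repr w 1 * M σ 0 1 - M σ 1 1 * b.repr w 0) • b 0 := by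
      conv_lhs => rw [hw]
      rw [map_add, map_smul, map_smul, hexp σ 0, hexp σ 1, hD10 σ hσ]
      simp only [zero_smul, add_zero, smul_add, smul_smul, add_smul, sub_smul]
      rw [mul_comm (M σ 1 1) (b.repr w 1)]
      abel
    rw [h2]
    exact Submodule.smul_mem _ _ (Submodule.mem_span_singleton_self _)
  · intro n a ha
    have h1 : LinearMap.det (ρ.ρ σ) - (a : R) ∈ Ideal.span {((p ^ n : ℕ) : R)} := hdet.2 n σ a ha
    rw [hdetM σ (hD10 σ hσ)] at h1
    have h3 : M σ 0 0 - (a : R) * M σ 1 1 = (M σ 0 0 * M σ 1 1 - (a : R)) * M σ 1 1 := by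
      have : M σ 0 0 * M σ 1 1 * M σ 1 1 = M σ 0 0 := by
        rw [mul_assoc, ← pow_two, hz2, mul_one]
      rw [sub_mul, this]
    rw [h3]
    exact Ideal.mul_mem_right _ _ h1

end Fermat.Agent.M59
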