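import Fermat.Agent.M59.S38g.MachEntry
import Fermat.Agent.M59.S38g.Ord.Seams
import Fermat.Agent.M59.Rp.OrdTop

/-!
M59 / box [C + S38g], cell [HARD], ordinary mode: FROM THE ENGINE VOCABULARY TO THE NATIVE ONE
(helper14, box owner).  Prefix `m59mo_`.  Twin of `M59/S38g/MachEntry.lean`.

* `m59mo_TresDict_stmt Peu` **[TRES-DICT]** : `ρ_W` of Tate type, `W` bad (= multiplicative) at `p`,
  `¬ Peu ρ̄ p` ⟹ `ρ̄` is très ramifiée at `p` in the native sense `m59mo_IsTres`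
  (= "`¬ Peu ⟹ v̄ = b(τ_v) ≠ 0`", the same dictionary as (R3)-(II) of [R_p-norm]).
* `m59mo_MachOrdR_stmt Peu` : `m59m_MachOrd_stmt Peu` (`M59/S38g/Seams.lean`) at a RIGID level,
  harmless primes allowed in the level, WITHOUT the hypothesis `¬ Occ (N / p)` (not needed).
* `m59mo_machOrdR_of (Peu) : m59e_EntryExt_stmt → m59m_RamN_stmt → m59mo_TresDict_stmt Peu →
    m59mo_Machine_stmt → m59mo_MachOrdR_stmt Peu`   (PROVED: the context `m59mo_Ctx` is built here;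
  residual ordinarity from `m59e_IsTate.ord` by helper24's `m59rpk_ord_residual`).
-/

set_option autoImplicit false
set_option linter.style.haveILetI false
set_option linter.unusedSectionVars false

open Polynomial CuspForm IsLocalRing WeierstrassCurve Fermat.Agent.TW Fermat.Agent.JT3

namespace Fermat.Agent.M59

/-- **[TRES-DICT]** not peu ramifiée ⟹ très ramifiée (native form). -/
def m59mo_TresDict_stmt (Peu : m59e_PeuPred) : Prop :=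
  ∀ (p : ℕ) [Fact p.Prime], p = 3 ∨ p = 5 → ∀ W : WeierstrassCurve ℤ, W.Δ ≠ 0 →
    W.IsSemistableModel →
  ∀ (𝒪 : Type) [CommRing 𝒪] [IsDomain 𝒪] [IsDiscreteValuationRing 𝒪]
    [IsAdicComplete (maximalIdeal 𝒪) 𝒪] [Finite (ResidueField 𝒪)] [CharZero 𝒪],
    (p : 𝒪) ∈ maximalIdeal 𝒪 →
  ∀ ρ : GaloisRepAdic 𝒪, m59e_IsTate p W ρ → ¬ W.IsGoodPrimeFor p →
    ¬ Peu (ResidueField 𝒪) ρ.residual p → m59mo_IsTres p ρ.residual

/-- **[MACH-g], ordinary mode, at a rigid level** (harmless primes allowed in the level). -/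
def m59mo_MachOrdR_stmt (Peu : m59e_PeuPred) : Prop :=
  ∀ (p : ℕ) [Fact p.Prime], p = 3 ∨ p = 5 → ∀ W : WeierstrassCurve ℤ, W.Δ ≠ 0 →
    W.IsSemistableModel →
  ∀ (𝒪 : Type) [CommRing 𝒪] [IsDomain 𝒪] [IsDiscreteValuationRing 𝒪]
    [IsAdicComplete (maximalIdeal 𝒪) 𝒪] [Finite (ResidueField 𝒪)] [CharZero 𝒪],
    (p : 𝒪) ∈ maximalIdeal 𝒪 →
  ∀ ρ : GaloisRepAdic 𝒪, m59e_IsTate p W ρ →
  ∀ (S : Finset ℕ) (N q : ℕ), m59e_IsBadSet W p S → 2 ∈ S → Squarefree N →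
    (∀ ℓ : ℕ, ℓ.Prime → ℓ ∣ N → ℓ ∈ S) → q.Prime → q ≠ p → q ∣ N →
    p ∣ N → ¬ W.IsGoodPrimeFor p → m59ep_Rigid p N →
    ¬ Peu (ResidueField 𝒪) ρ.residual p →
    ρ.residual.IsUnramifiedAt q → m59m_IsHard p ρ.residual q →
    (∀ ℓ : ℕ, ℓ.Prime → ℓ ≠ p → ℓ ∣ N → ρ.residual.IsUnramifiedAt ℓ →
      m59m_IsHard p ρ.residual ℓ ∨ m59m_IsHarmless p ρ.residual ℓ) →
    m59e_Occ p W S N → m59m_Lift p W S N q

/-- **[MACH-g] ordinary mode at a rigid level from [ENTRY-ext], [RAM-N], [TRES-DICT] and the native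
ordinary machine.** -/
theorem m59mo_machOrdR_of (Peu : m59e_PeuPred) (hE : m59e_EntryExt_stmt) (hRN : m59m_RamN_stmt)
    (hD : m59mo_TresDict_stmt Peu) (hM : m59mo_Machine_stmt) : m59mo_MachOrdR_stmt Peu := by
  classical
  intro p _ hp W hΔ hW 𝒪 _ _ _ _ _ _ hp𝒪 ρ hT S N q hS h2S hsq hNS hq hqp hqN hpN hbad hrig hpeu
    hunr hhard hall hocc
  haveI : NeZero N := ⟨hsq.ne_zero⟩
  have hp2 : p ≠ 2 := by rcases hp with rfl | rfl <;> norm_num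
  obtain ⟨θ₀, hc, hne⟩ := hE p hp W hΔ hW 𝒪 hp𝒪 ρ hT S S N hS hsq (Finset.Subset.refl S) hS.1
    hNS hocc
  haveI : CharP (ResidueField 𝒪) p := m59m_charP_residue p hp𝒪
  let Sram : Finset ℕ :=
    N.primeFactors.filter fun ℓ => ℓ ≠ p ∧ ¬ ρ.residual.IsUnramifiedAt ℓ
  have hmem : ∀ ℓ : ℕ, ℓ ∈ Sram ↔
      (ℓ.Prime ∧ ℓ ∣ N) ∧ ℓ ≠ p ∧ ¬ ρ.residual.IsUnramifiedAt ℓ := by
    intro ℓ
    rw [Finset.mem_filter, Nat.mem_primeFactors]
    constructor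
    · rintro ⟨⟨h1, h2, -⟩, h3⟩
      exact ⟨⟨h1, h2⟩, h3⟩
    · rintro ⟨⟨h1, h2⟩, h3⟩
      exact ⟨⟨h1, h2, hsq.ne_zero⟩, h3⟩
  have hunrOf : ∀ ℓ : ℕ, ℓ.Prime → ℓ ≠ p → ℓ ∣ N → ℓ ∉ Sram → ρ.residual.IsUnramifiedAt ℓ := by
    intro ℓ hℓ hℓp hℓN hℓr
    by_contra hr
    exact hℓr ((hmem ℓ).mpr ⟨⟨hℓ, hℓN⟩, hℓp, hr⟩)
  have hne1 : ∀ ℓ : ℕ, ℓ % p = 1 → ℓ ≠ p := by
    intro ℓ h1 h
    rw [h, Nat.mod_self] at h1
    exact zero_ne_one h1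
  have hC : m59mo_Ctx p N q S θ₀ ρ.residual Sram :=
    { hp := hp
      sq := hsq
      pN := hpN
      rigid := hrig
      pS := hS.1
      NS := hNS
      compat := hc
      nonEis := hne
      abs := hT.irr
      tw := hT.tw
      ordres := m59rpk_ord_residual ρ (hT.ord hbad)
      tres := hD p hp W hΔ hW 𝒪 hp𝒪 ρ hT hbad hpeu
      ram := fun ℓ hℓ hℓp => ⟨fun hm => ((hmem ℓ).mp hm).2.2, fun hr => (hmem ℓ).mpr ⟨⟨hℓ, by
        by_contra hℓN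
        exact hr (hRN p hp2 𝒪 hp𝒪 N S hS.1 hNS θ₀ ρ.residual hc hT.irr ℓ hℓ hℓp hℓN)⟩, hℓp, hr⟩⟩
      ramN := fun ℓ hm => ((hmem ℓ).mp hm).1
      pram := fun hm => ((hmem p).mp hm).2.1 rfl
      hard := fun ℓ hℓ hℓN hℓr h1 => by
        have hℓp : ℓ ≠ p := hne1 ℓ h1
        rcases hall ℓ hℓ hℓp hℓN (hunrOf ℓ hℓ hℓp hℓN hℓr) with h | h
        · exact h.2
        · exfalso
          have h2 := h.1
          rcases hp with rfl | rfl <;> omega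
      harmless := fun ℓ hℓ hℓp hℓN hℓr h1 => by
        rcases hall ℓ hℓ hℓp hℓN (hunrOf ℓ hℓ hℓp hℓN hℓr) with h | h
        · exact absurd h.1 h1
        · exact h
      qp := hq
      qN := hqN
      qram := fun hm => ((hmem q).mp hm).2.2 hunr
      q1 := hhard.1 }
  exact m59m_lift_of_liftOf (m59m_eig_of_compat hT hS θ₀ hc)
    (hM p (ResidueField 𝒪) N q S θ₀ ρ.residual Sram hC)

end Fermat.Agent.M59
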