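import Mathlib
import Fermat.Agent.M59.S38g.CTop.FramesType
import Fermat.Agent.M59.S38g.Ord.Strict
import Fermat.Agent.M59.Rp.OrdTop
import Fermat.Agent.M59.C.Present

/-!
# M59 / box [C + S38g], ordinary mode, cell [C-top-ord] (helper14; prefix `m59mo_`): THE TYPES

Twin of helper21's `M59/S38g/CTop/FramesType.lean` with `IsFlatAt p` replaced by the Prelude's
`IsStrictOrdinaryAt p`:

* `m59mo_IsTypeO p Smin Th Q ρ` : cyclotomic determinant, STRICTLY ordinary at `p`, unramified outside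
  `Smin ∪ Th ∪ Q`, unipotent inertia at `Smin ∖ {p}` (= main's `twc_IsType` with the flat clause
  replaced);
* transports: `m59mo_isTypeO_of_equiv`, `m59mo_isTypeO_map` (ANY local homomorphism),
  `m59mo_frame_strict`, `m59mo_isType_c` (to helper21's generic `m59c_IsType` with
  `Pp := IsStrictOrdinaryAt p`);
* `m59mo_IsTres` transports: `m59mo_tres_of_equiv`, `m59mo_tres_baseChange`, `m59mo_tres_datum`;
* `m59mo_dl_isType` : the type of a Hecke–Galois datum of level `p ∥ Nb` (ordinary: helper24's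
  `m59rpk_ord_top` = banked S33; strict: `m59mo_strict_of_tres`), harmless primes allowed;
* `m59mo_ft_isType_big`, `m59mo_ft_isType_level` : the types along the tower.
-/

set_option autoImplicit false
set_option linter.unusedSectionVars false
set_option linter.style.haveILetI false

open Polynomial IsLocalRing CuspForm ExtCitation
open Fermat.Agent.S53 Fermat.Agent.S56 Fermat.Agent.JT3 Fermat.Agent.TW

namespace Fermat.Agent.M59

noncomputable section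

local notation "GQ" => (AlgebraicClosure ℚ ≃ₐ[ℚ] AlgebraicClosure ℚ)
local notation "Qbar" => AlgebraicClosure ℚ

attribute [local instance] S53.dualNumberAlgebra

/-- the conditions of level `Q` away from the hard primes `Th`, STRICTLY ORDINARY at `p`
(twin of `twc_IsType`). -/
def m59mo_IsTypeO (p : ℕ) (Smin : Finset ℕ) (Th : Finset Nat.Primes) (Q : Finset ℕ)
    {A : Type} [CommRing A] [IsLocalRing A] (ρ : GaloisRepAdic A) : Prop :=
  ρ.DetIsCyclotomic p ∧ ρ.IsStrictOrdinaryAt p ∧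
  (∀ q : ℕ, q.Prime → q ∉ Smin ∪ Th.image (fun ℓ : Nat.Primes => (ℓ : ℕ)) ∪ Q →
    ρ.IsUnramifiedAt q) ∧
  (∀ q ∈ Smin, q.Prime → q ≠ p → ρ.IsUnipotentOnInertiaAt q)

section transport

variable {A B : Type} [CommRing A] [IsLocalRing A] [CommRing B] [IsLocalRing B]

/-- `m59mo_IsTypeO` only depends on the equivalence class. -/
theorem m59mo_isTypeO_of_equiv {p : ℕ} {Smin : Finset ℕ} {Th : Finset Nat.Primes} {Q : Finset ℕ}
    {ρ ρ' : GaloisRepAdic A} (e : ρ.IsEquiv ρ') (h : m59mo_IsTypeO p Smin Th Q ρ) :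
    m59mo_IsTypeO p Smin Th Q ρ' := by
  obtain ⟨e⟩ := e
  obtain ⟨h1, h2, h3, h4⟩ := h
  exact ⟨s56t_tr_detIsCyclotomic e h1, s56t_tr_isStrictOrdinaryAt e h2,
    fun q hq hqn => s56t_tr_isUnramifiedAt e (h3 q hq hqn),
    fun q hq hqp hqne => s56t_tr_isUnipotentOnInertiaAt e (h4 q hq hqp hqne)⟩

/-- `m59mo_IsTypeO` along the push-forward by a local homomorphism. -/
theorem m59mo_isTypeO_map {p : ℕ} {Smin : Finset ℕ} {Th : Finset Nat.Primes} {Q : Finset ℕ}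
    (φ : A →+* B) (hφ : IsLocalHom φ) (r : FramedRep A)
    (h : m59mo_IsTypeO p Smin Th Q r.toGaloisRepAdic) :
    m59mo_IsTypeO p Smin Th Q (r.map φ hφ).toGaloisRepAdic := by
  refine m59mo_isTypeO_of_equiv (FramedRep.baseChangeAlong_isEquiv φ hφ r) ?_
  obtain ⟨h1, h2, h3, h4⟩ := h
  exact ⟨s56bc_det φ hφ _ p h1, s56bc_strictOrdinary φ hφ _ p h2,
    fun q hq hqn => s56bc_unramified φ hφ _ q (h3 q hq hqn),
    fun q hq hqp hqne => s56bc_unipotent φ hφ _ q (h4 q hq hqp hqne)⟩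

end transport

section frame

variable {𝒪 : Type} [CommRing 𝒪] [IsLocalRing 𝒪]
  {T : Type} [CommRing T] [IsLocalRing T] [Algebra 𝒪 T] [IsLocalHom (algebraMap 𝒪 T)]

/-- strict ordinarity of the frames over `k[ε]`. -/
theorem m59mo_frame_strict (r : FramedRep T) (φ : T →ₐ[𝒪] DualNumber (ResidueField 𝒪)) {p : ℕ}
    (h : r.toGaloisRepAdic.IsStrictOrdinaryAt p) :
    (twc_frame r φ).toGaloisRepAdic.IsStrictOrdinaryAt p := by
  obtain ⟨e⟩ := twc_frame_isEquiv r φ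
  exact s56t_tr_isStrictOrdinaryAt e (s56bc_strictOrdinary _ (twc_isLocalHom φ) _ p h)

end frame

/-- the strict-ordinary type is a type in helper21's generic sense, with
`Pp := IsStrictOrdinaryAt p`. -/
theorem m59mo_isType_c {𝒪 : Type} [CommRing 𝒪] [IsLocalRing 𝒪]
    {rb : FramedResidual (ResidueField 𝒪)} {p : ℕ} {Smin : Finset ℕ} {Th : Finset Nat.Primes}
    {Q : Finset ℕ} {H : twc_HPair 𝒪 rb} (h : m59mo_IsTypeO p Smin Th Q H.r.toGaloisRepAdic) :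
    m59c_IsType p (fun r => r.toGaloisRepAdic.IsStrictOrdinaryAt p) Smin Th Q H :=
  ⟨h.1, fun _ φ _ => m59mo_frame_strict H.r φ h.2.1, h.2.2.1, h.2.2.2⟩

/-! ### transport of `m59mo_IsTres` -/

section tres

variable {k : Type} [Field k]

/-- très ramifiée only depends on the equivalence class. -/
theorem m59mo_tres_of_equiv {p : ℕ} {ρ₁ ρ₂ : ResidualGaloisRep k} (h : ρ₁.IsEquiv ρ₂)
    (h2 : m59mo_IsTres p ρ₂) : m59mo_IsTres p ρ₁ := by
  obtain ⟨e⟩ := h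
  intro P hP
  obtain ⟨τ, hτI, hτ1, hτne⟩ := h2 P hP
  refine ⟨τ, hτI, hτ1, fun h1 => hτne ?_⟩
  refine LinearMap.ext fun x => ?_
  have h3 := e.map_apply τ (e.toLinearEquiv.symm x)
  rw [h1, Module.End.one_apply, LinearEquiv.apply_symm_apply] at h3
  rw [Module.End.one_apply]
  exact h3.symm

/-- très ramifiée passes to a base change. -/
theorem m59mo_tres_baseChange {k' : Type} [Field k'] (φ : k →+* k') {p : ℕ}
    {ρbar : ResidualGaloisRep k} (h : m59mo_IsTres p ρbar) :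
    m59mo_IsTres p (ρbar.baseChangeAlong φ) := by
  letI : Algebra k k' := φ.toAlgebra
  intro P hP
  obtain ⟨τ, hτI, hτ1, hτne⟩ := h P hP
  refine ⟨τ, hτI, hτ1, fun h1 => hτne ?_⟩
  have h2 : (ρbar.ρ τ).baseChange k' = 1 := h1
  let b := Module.finBasis k ρbar.V
  have h3 : LinearMap.toMatrix (Algebra.TensorProduct.basis k' b) (Algebra.TensorProduct.basis k' b)
      ((ρbar.ρ τ).baseChange k') = (LinearMap.toMatrix b b (ρbar.ρ τ)).map (algebraMap k k') :=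
    LinearMap.toMatrix_baseChange k' (ρbar.ρ τ) b b
  rw [h2, LinearMap.toMatrix_one] at h3
  have h4 : LinearMap.toMatrix b b (ρbar.ρ τ) = 1 := by
    ext i j
    have h5 := congrFun (congrFun h3 i) j
    rw [Matrix.map_apply, Matrix.one_apply] at h5
    apply (algebraMap k k').injective
    rw [← h5, Matrix.one_apply]
    split_ifs <;> simp
  have h6 : LinearMap.toMatrix b b (ρbar.ρ τ) = LinearMap.toMatrix b b (1 : Module.End k ρbar.V) := by
    rw [h4, LinearMap.toMatrix_one]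
  exact (LinearMap.toMatrix b b).injective h6

variable {𝒪 : Type} [CommRing 𝒪] [IsDomain 𝒪] [IsDiscreteValuationRing 𝒪]
  [IsAdicComplete (maximalIdeal 𝒪) 𝒪]
  {Nb : ℕ} [NeZero Nb] {S' : Finset ℕ}
  {θ : heckeAlgebra Nb 2 (↑S' : Set ℕ) →+* ResidueField 𝒪}
  {T : Type} [CommRing T] [IsLocalRing T] [IsNoetherianRing T]
  [IsAdicComplete (maximalIdeal T) T] [Algebra 𝒪 T] [IsLocalHom (algebraMap 𝒪 T)]
  [Module.Finite 𝒪 T] [Module.Free 𝒪 T]

/-- très ramifiée for the residual representation of a Hecke–Galois datum. -/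
theorem m59mo_tres_datum (H : HeckeGaloisRepDatum Nb (↑S' : Set ℕ) 𝒪 θ T)
    (ρbar : ResidualGaloisRep (ResidueField 𝒪)) (hcompat : twt_Compat θ ρbar) {p : ℕ}
    (h : m59mo_IsTres p ρbar) : m59mo_IsTres p H.ρ.residual :=
  m59mo_tres_of_equiv (twt_re_datum H ρbar hcompat)
    (m59mo_tres_baseChange (ResidueField.map (algebraMap 𝒪 T)) h)

/-- the residue field of the coefficient ring of a Hecke–Galois datum is finite. -/
theorem m59mo_finite_residue [Finite (ResidueField 𝒪)]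
    (H : HeckeGaloisRepDatum Nb (↑S' : Set ℕ) 𝒪 θ T) : Finite (ResidueField T) := by
  refine Finite.of_surjective (fun x : ResidueField 𝒪 => ResidueField.map (algebraMap 𝒪 T) x) ?_
  intro y
  obtain ⟨o, ho⟩ := H.residue_surjective y
  exact ⟨residue 𝒪 o, ho⟩

/-- **the strict-ordinary type of block [C] for a Hecke–Galois datum of level `p ∥ Nb`, with
harmless primes** (twin of `m59ct_dl_isType`). -/
theorem m59mo_dl_isType [Finite (ResidueField 𝒪)] [CharZero 𝒪] {p : ℕ} [Fact p.Prime]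
    (hp2 : p ≠ 2) (hp𝒪 : (p : 𝒪) ∈ maximalIdeal 𝒪) (hpN : p ∣ Nb ∧ ¬ p ^ 2 ∣ Nb)
    (hpS : p ∈ S') (hNS : ∀ q : ℕ, q.Prime → q ∣ Nb → q ∈ S')
    (H : HeckeGaloisRepDatum Nb (↑S' : Set ℕ) 𝒪 θ T)
    (ρbar : ResidualGaloisRep (ResidueField 𝒪)) (hcompat : twt_Compat θ ρbar)
    (hord : (GaloisRepAdic.ofResidualGaloisRep ρbar).IsOrdinaryAt p)
    (htres : m59mo_IsTres p ρbar)
    (Smin : Finset ℕ) (Th : Finset Nat.Primes) (Q : Finset ℕ) (hpSmin : p ∈ Smin)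
    (hcover : ∀ q : ℕ, q.Prime → q ≠ p → q ∣ Nb →
      q ∈ Smin ∪ Th.image (fun ℓ : Nat.Primes => (ℓ : ℕ)) ∪ Q ∨
        (¬ q ^ 2 ∣ Nb ∧ ρbar.IsUnramifiedAt q ∧ m59m_IsHarmless p ρbar q))
    (hSmin : ∀ q ∈ Smin, q.Prime → q ≠ p → q ∣ Nb ∧ ¬ q ^ 2 ∣ Nb) :
    m59mo_IsTypeO p Smin Th Q H.ρ := by
  have hp : p.Prime := Fact.out
  have hdet := twt_dl_det hp hp𝒪 hNS H
  haveI : Finite (ResidueField T) := m59mo_finite_residue H
  have hfin : ∀ n : ℕ, Finite (T ⧸ maximalIdeal T ^ n) := fun n => twds_finite_quot_pow T n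
  have hsep : ∀ x : T, (∀ n : ℕ, x ∈ maximalIdeal T ^ n) → x = 0 := by
    intro x hx
    have h1 : x ∈ ⨅ n : ℕ, maximalIdeal T ^ n := by
      rw [Ideal.mem_iInf]
      exact hx
    rw [Ideal.iInf_pow_eq_bot_of_isLocalRing _ (maximalIdeal.isMaximal T).ne_top] at h1
    exact h1
  refine ⟨hdet, m59mo_strict_of_tres hfin hsep H.ρ hdet
    (m59rpk_ord_top hp hp2 hp𝒪 hpN hNS H ρbar hcompat hord)
    (m59mo_tres_datum H ρbar hcompat htres), ?_, ?_⟩
  · intro q hq hqU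
    have hqp : q ≠ p := by
      rintro rfl
      exact hqU (Finset.mem_union_left _ (Finset.mem_union_left _ hpSmin))
    by_cases hqN : q ∣ Nb
    · rcases hcover q hq hqp hqN with h | ⟨hq2, hunr, hharm⟩
      · exact absurd h hqU
      · exact m59ct_harmless p hp2 T (twt_dl_p_mem hp𝒪) H.ρ q hq hqp hdet
          (twt_re_datum_unram H ρbar hcompat q hunr) (m59ct_harmless_datum H ρbar hcompat hharm)
          (twt_dl_unip hp hp𝒪 hpS hNS H q hq hqp hqN hq2)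
    · exact twt_dl_unram hp hp𝒪 hpS hNS H q hq hqN hqp
  · intro q hqSmin hq hqp
    obtain ⟨h1, h2⟩ := hSmin q hqSmin hq hqp
    exact twt_dl_unip hp hp𝒪 hpS hNS H q hq hqp h1 h2

end tres

/-! ### the types along the tower -/

section types

variable {𝒪 : Type} [CommRing 𝒪] [IsDomain 𝒪] [IsDiscreteValuationRing 𝒪]
  [IsAdicComplete (maximalIdeal 𝒪) 𝒪] [Finite (ResidueField 𝒪)] [CharZero 𝒪]
  {N : ℕ} [NeZero N] {S : Finset ℕ} {θ : heckeAlgebra N 2 (↑S : Set ℕ) →+* ResidueField 𝒪}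
  {B : twe_Base 𝒪 N S θ} {p : ℕ} {Q : Finset ℕ} [NeZero (twe_Nbal N Q ∅)]
  {L : twe_Level B p Q} {ThP : Finset Nat.Primes}
  [NeZero (twe_Nbal N Q (ThP.image fun ℓ : Nat.Primes => (ℓ : ℕ)))]

/-- **the strict-ordinary type of a framing of the big system, with harmless primes**
(twin of `m59ct_ft_isType_big` at `p ∥ N`). -/
theorem m59mo_ft_isType_big [Fact p.Prime] (hp2 : p ≠ 2) (hp𝒪 : (p : 𝒪) ∈ maximalIdeal 𝒪)
    (hpN : p ∣ N) (hpS : p ∈ S) (hNS : ∀ ℓ : ℕ, ℓ.Prime → ℓ ∣ N → ℓ ∈ S) (hsq : Squarefree N)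
    (hQ : ∀ t ∈ Q, t.Prime ∧ t ∉ S) (hThN : ∀ ℓ ∈ ThP, (ℓ : ℕ) ∣ N)
    (hThp : ∀ ℓ ∈ ThP, (ℓ : ℕ) ≠ p)
    (ρbar : ResidualGaloisRep (ResidueField 𝒪)) (hcompat : twt_Compat θ ρbar)
    (hord : (GaloisRepAdic.ofResidualGaloisRep ρbar).IsOrdinaryAt p)
    (htres : m59mo_IsTres p ρbar)
    (Smin : Finset ℕ) (hpSmin : p ∈ Smin)
    (hcoverN : ∀ q : ℕ, q.Prime → q ≠ p → q ∣ N →
      q ∈ Smin ∪ ThP.image (fun ℓ : Nat.Primes => (ℓ : ℕ)) ∨
        (ρbar.IsUnramifiedAt q ∧ m59m_IsHarmless p ρbar q))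
    (hSminN : ∀ q ∈ Smin, q.Prime → q ≠ p →
      q ∣ N ∧ q ∉ ThP.image (fun ℓ : Nat.Primes => (ℓ : ℕ)))
    (Bg : twe_Big L (ThP.image fun ℓ : Nat.Primes => (ℓ : ℕ)))
    (r'' : FramedRep Bg.T'') (h : Bg.H''.ρ.IsEquiv r''.toGaloisRepAdic) :
    m59mo_IsTypeO p Smin ThP Q r''.toGaloisRepAdic := by
  classical
  have hp : p.Prime := Fact.out
  have hQp : ∀ t ∈ Q, t.Prime := fun t ht => (hQ t ht).1
  have hTh := twc_ft_hTh (N := N) hThN
  have hThp' : ∀ ℓ ∈ ThP.image (fun ℓ : Nat.Primes => (ℓ : ℕ)), ℓ.Prime :=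
    fun ℓ hℓ => (hTh ℓ hℓ).1
  have hNS'' := twc_ft_hNS hNS hQp hTh
  have hpQ : p ∉ Q := fun h' => (hQ p h').2 hpS
  have hpTh : p ∉ ThP.image (fun ℓ : Nat.Primes => (ℓ : ℕ)) := by
    intro h'
    obtain ⟨ℓ', hℓ', h2⟩ := Finset.mem_image.1 h'
    exact hThp ℓ' hℓ' h2
  have hpN'' : p ∣ twe_Nbal N Q (ThP.image fun ℓ : Nat.Primes => (ℓ : ℕ)) ∧
      ¬ p ^ 2 ∣ twe_Nbal N Q (ThP.image fun ℓ : Nat.Primes => (ℓ : ℕ)) :=
    ⟨dvd_trans hpN (twc_fr_N_dvd_Nbal N Q _), twc_ft_not_sq_dvd hsq hQp hThp' hp hpQ hpTh⟩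
  refine m59mo_isTypeO_of_equiv h
    (m59mo_dl_isType hp2 hp𝒪 hpN'' (Finset.mem_union_left _ hpS) hNS'' Bg.H'' ρbar
      (twlg_as_compat_big Bg ρbar hcompat) hord htres Smin ThP Q hpSmin ?_ ?_)
  · intro q hq hqp hqN
    rcases (twc_ft_prime_dvd_Nbal hQp hThp' hq).1 hqN with h'' | h'' | h''
    · rcases hcoverN q hq hqp h'' with h3 | ⟨h3, h4⟩
      · exact Or.inl (Finset.mem_union_left _ h3)
      · by_cases hqQ : q ∈ Q
        · exact Or.inl (Finset.mem_union_right _ hqQ)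
        · by_cases hqTh : q ∈ ThP.image (fun ℓ : Nat.Primes => (ℓ : ℕ))
          · exact Or.inl (Finset.mem_union_left _ (Finset.mem_union_right _ hqTh))
          · exact Or.inr ⟨twc_ft_not_sq_dvd hsq hQp hThp' hq hqQ hqTh, h3, h4⟩
    · exact Or.inl (Finset.mem_union_right _ h'')
    · exact Or.inl (Finset.mem_union_left _ (Finset.mem_union_right _ h''))
  · intro q hqS hq hqp
    obtain ⟨hqN, hqTh⟩ := hSminN q hqS hq hqp
    have hqQ : q ∉ Q := fun h' => (hQ q h').2 (hNS q hq hqN)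
    exact ⟨dvd_trans hqN (twc_fr_N_dvd_Nbal N Q _), twc_ft_not_sq_dvd hsq hQp hThp' hq hqQ hqTh⟩

/-- **the strict-ordinary type of the push-forward to the unipotent level** (twin of
`m59ct_ft_isType_level`). -/
theorem m59mo_ft_isType_level [Fact p.Prime] (hp2 : p ≠ 2) (hp𝒪 : (p : 𝒪) ∈ maximalIdeal 𝒪)
    (hpN : p ∣ N) (hpS : p ∈ S) (hNS : ∀ ℓ : ℕ, ℓ.Prime → ℓ ∣ N → ℓ ∈ S) (hsq : Squarefree N)
    (hQ : ∀ t ∈ Q, t.Prime ∧ t ∉ S) (hThN : ∀ ℓ ∈ ThP, (ℓ : ℕ) ∣ N)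
    (hThp : ∀ ℓ ∈ ThP, (ℓ : ℕ) ≠ p)
    (ρbar : ResidualGaloisRep (ResidueField 𝒪)) (hcompat : twt_Compat θ ρbar)
    (hord : (GaloisRepAdic.ofResidualGaloisRep ρbar).IsOrdinaryAt p)
    (htres : m59mo_IsTres p ρbar)
    (Smin : Finset ℕ) (hpSmin : p ∈ Smin)
    (hcoverN : ∀ q : ℕ, q.Prime → q ≠ p → q ∣ N →
      q ∈ Smin ∪ ThP.image (fun ℓ : Nat.Primes => (ℓ : ℕ)) ∨
        (ρbar.IsUnramifiedAt q ∧ m59m_IsHarmless p ρbar q))
    (hSminN : ∀ q ∈ Smin, q.Prime → q ≠ p →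
      q ∣ N ∧ q ∉ ThP.image (fun ℓ : Nat.Primes => (ℓ : ℕ)))
    (Bg : twe_Big L (ThP.image fun ℓ : Nat.Primes => (ℓ : ℕ)))
    (hloc : IsLocalHom (Bg.π1 : Bg.T'' →+* L.T'))
    (r'' : FramedRep Bg.T'') (h : Bg.H''.ρ.IsEquiv r''.toGaloisRepAdic) :
    m59mo_IsTypeO p Smin ThP Q (r''.map (Bg.π1 : Bg.T'' →+* L.T') hloc).toGaloisRepAdic :=
  m59mo_isTypeO_map _ hloc r''
    (m59mo_ft_isType_big hp2 hp𝒪 hpN hpS hNS hsq hQ hThN hThp ρbar hcompat hord htres Smin hpSmin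
      hcoverN hSminN Bg r'' h)

end types

end

end Fermat.Agent.M59
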