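import Mathlib
import Fermat.Agent.TW.Def.LevelAsm
import Fermat.Agent.M59.S38g.Ord.CType

/-!
# M59 / box [C + S38g], ordinary mode, cell [C-top-ord] (helper14; prefix `m59mo_`): THE `χ`-SYSTEM

`m59mo_la_chiSys` : twin of main's `twc_la_chiSys` (`TW/Def/LevelAsm.lean`) with the flat type
`twc_IsType` replaced by the strict-ordinary type `m59mo_IsTypeO` (`M59/S38g/Ord/CType.lean`).
The proof is main's, verbatim: the type is only transported to the quotient `P.T ⧸ ker act`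
(`m59mo_isTypeO_map`) and fed to the cotangent bound.
-/

set_option autoImplicit false
set_option linter.unusedSectionVars false
set_option linter.style.haveILetI false

open Polynomial CuspForm IsLocalRing ExtCitation
open Fermat.Agent.S53 Fermat.Agent.S56 Fermat.Agent.TW

namespace Fermat.Agent.M59

noncomputable section

local notation "GQ" => (AlgebraicClosure ℚ ≃ₐ[ℚ] AlgebraicClosure ℚ)
local notation "Qbar" => AlgebraicClosure ℚ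

attribute [local instance] S53.dualNumberAlgebra

/-- **the `χ`-system on the image of the Hecke ring in `End(M^χ)`**: generic form, STRICT-ORDINARY type
(twin of `twc_la_chiSys`, `TW/Def/LevelAsm.lean`; same proof). -/
theorem m59mo_la_chiSys {𝒪 : Type} [CommRing 𝒪] [IsLocalRing 𝒪]
    {rb : FramedResidual (ResidueField 𝒪)}
    {p : ℕ} [Fact p.Prime] {Th : Finset Nat.Primes} (td : twc_TameData p Th) (a : Nat.Primes → 𝒪)
    (P : twc_HPair 𝒪 rb)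
    (hrbI : ∀ ℓ ∈ Th, ∀ τ ∈ (primeLocalPlace ℓ).inertiaSubgroupIn ℚ, rb τ = 1)
    (hφa : ∀ ℓ ∈ Th, rb (td.gφ ℓ) = Matrix.scalar (Fin 2) (residue 𝒪 (a ℓ)))
    (hℓp : ∀ ℓ ∈ Th, (ℓ : ℕ) ≠ p) (hℓ1 : ∀ ℓ ∈ Th, (ℓ : ℕ) % p = 1)
    {r d g : ℕ} (hd : 0 < d) {B' : Type} [CommRing B'] [Algebra 𝒪 B'] [Nontrivial B']
    (yB : Fin r → B') (act : P.T →ₐ[𝒪] Matrix (Fin d) (Fin d) B')
    (hgeom : ∀ ℓ ∈ Th, ∀ i j, act ((∑ k ∈ Finset.range p, P.r (td.gσ ℓ) ^ k) i j) = 0)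
    {Smin Q : Finset ℕ} (hType : m59mo_IsTypeO p Smin Th Q P.r.toGaloisRepAdic)
    (hfin : ∀ (H : twc_HPair 𝒪 rb), m59mo_IsTypeO p Smin Th Q H.r.toGaloisRepAdic →
      ∀ (ι : Type) (z : ι → maximalIdeal H.T),
        (∀ φ : H.T →ₐ[𝒪] DualNumber (ResidueField 𝒪), (∀ i, φ (z i : H.T) = 0) →
          twc_LocNoEps td H φ) →
        Module.finrank (ResidueField H.T) (CotangentSpace H.T ⧸ twc_relW 𝒪 z) ≤ g)
    (u : Fin r → P.T) (u_mem : ∀ i, u i - 1 ∈ maximalIdeal P.T)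
    (act_u : ∀ i, act (u i) = Matrix.scalar (Fin d) (1 + yB i)) :
    ∃ (sχ : twc_LvSys 𝒪 r d g (↥Th × Fin 2 × Fin 2 × Fin 2)
        ((↥Th × Fin 2 × Fin 2 × Fin 2) ⊕ Fin g) Sum.inl
        (twb_r8_Jhash 𝒪 (Fin g) p (fun ℓ : ↥Th => a ℓ)
          (fun ℓ : ↥Th => ((ℓ : Nat.Primes) : ℕ))) B' yB)
      (πχ : P.T →ₐ[𝒪] sχ.T), Function.Surjective πχ ∧
      (∀ c, (sχ.z c : sχ.T) = πχ (twc_lm_z td a P hrbI hφa c)) ∧
      (∀ i, sχ.u i = πχ (u i)) ∧ ∀ x, sχ.act (πχ x) = act x := by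
  classical
  -- the kernel of `act`
  set Kχ : Ideal P.T := RingHom.ker (act : P.T →+* Matrix (Fin d) (Fin d) B') with hKχdef
  have hKχ : Kχ ≠ ⊤ := by
    intro h
    rw [Ideal.eq_top_iff_one, hKχdef, RingHom.mem_ker, map_one] at h
    have h1 := congrFun (congrFun h ⟨0, hd⟩) ⟨0, hd⟩
    rw [Matrix.one_apply_eq, Matrix.zero_apply] at h1
    exact one_ne_zero h1
  haveI hlocχ : IsLocalRing (P.T ⧸ Kχ) := twb_qi_isLocalRing hKχ
  haveI : IsAdicComplete (maximalIdeal (P.T ⧸ Kχ)) (P.T ⧸ Kχ) := twb_qi_isAdicComplete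
  haveI : IsLocalHom (algebraMap 𝒪 (P.T ⧸ Kχ)) := twc_hp_quot_isLocalHom P Kχ
  have hmks : Function.Surjective (Ideal.Quotient.mk Kχ) := Ideal.Quotient.mk_surjective
  set Pχ : twc_HPair 𝒪 rb := twc_hp_quot P Kχ hKχ with hPχ
  have htypeχ : m59mo_IsTypeO p Smin Th Q Pχ.r.toGaloisRepAdic :=
    m59mo_isTypeO_map (Ideal.Quotient.mk Kχ) (IsLocalHom.of_surjective _ hmks) P.r hType
  have hgeomχ : ∀ ℓ ∈ Th, ∑ k ∈ Finset.range p, Pχ.r (td.gσ ℓ) ^ k = 0 := by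
    intro ℓ hℓ
    have h1 : ∀ k : ℕ, Pχ.r (td.gσ ℓ) ^ k =
        (Ideal.Quotient.mk Kχ).mapMatrix (P.r (td.gσ ℓ) ^ k) := by
      intro k
      rw [map_pow]
      rfl
    ext i j
    have h3 : (∑ k ∈ Finset.range p, Pχ.r (td.gσ ℓ) ^ k) i j =
        Ideal.Quotient.mk Kχ ((∑ k ∈ Finset.range p, P.r (td.gσ ℓ) ^ k) i j) := by
      rw [Matrix.sum_apply, Matrix.sum_apply, map_sum]
      refine Finset.sum_congr rfl fun k _ => ?_
      rw [h1 k]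
      rfl
    rw [h3, Matrix.zero_apply]
    refine (Ideal.Quotient.eq_zero_iff_mem (I := Kχ)).2 ?_
    rw [hKχdef, RingHom.mem_ker]
    exact hgeom ℓ hℓ i j
  -- the action descends
  let actχ' : P.T ⧸ Kχ →ₐ[𝒪] Matrix (Fin d) (Fin d) B' :=
    Ideal.Quotient.liftₐ Kχ act (fun x hx => hx)
  have u_memχ : ∀ i, Ideal.Quotient.mk Kχ (u i) - 1 ∈ maximalIdeal (P.T ⧸ Kχ) := fun i => by
    haveI : IsLocalHom (Ideal.Quotient.mk Kχ) := IsLocalHom.of_surjective _ hmks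
    have h2 : (Ideal.Quotient.mk Kχ) (u i - 1) ∈ maximalIdeal (P.T ⧸ Kχ) :=
      map_nonunit (Ideal.Quotient.mk Kχ) _ (u_mem i)
    rw [map_sub, map_one] at h2
    exact h2
  have hactχu' : ∀ i, actχ' (Ideal.Quotient.mk Kχ (u i)) = Matrix.scalar (Fin d) (1 + yB i) :=
    fun i => act_u i
  refine ⟨twc_lm_sysχ td a Pχ hrbI hφa hℓp hℓ1 htypeχ.1 hgeomχ yB (hfin Pχ htypeχ) actχ'
    (fun i => Ideal.Quotient.mk Kχ (u i)) u_memχ hactχu',
    (Ideal.Quotient.mkₐ 𝒪 Kχ : P.T →ₐ[𝒪] P.T ⧸ Kχ), Ideal.Quotient.mkₐ_surjective 𝒪 Kχ, ?_, ?_, ?_⟩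
  · intro c
    exact twc_lm_z_push td a P hrbI hφa (P.T ⧸ Kχ) (Ideal.Quotient.mkₐ 𝒪 Kχ)
      (Ideal.Quotient.mkₐ_surjective 𝒪 Kχ) c
  · intro i
    rfl
  · intro x
    rfl

end

end Fermat.Agent.M59
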