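import Mathlib
import Fermat.Agent.M59.S38g.Ord.CType
import Fermat.Agent.S56.LocP.Final
import Fermat.Agent.TW.Def.Present

/-!
# M59 / box [C + S38g], ordinary mode, cell [C-top-ord] (helper14; prefix `m59mo_`): THE COUNT

`m59mo_finrank_le` : twin of main's `twc_finrank_le` (`TW/Def/Present.lean`) for the
STRICT-ORDINARY type `m59mo_IsTypeO`: ONE existential `∃ r, ∀ n, ∃ qv` (Taylor–Wiles primes) such
that for every Hecke pair `H` of the enlarged strict-ordinary type and every family `z` of local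
coordinates (`twc_LocNoEps`) the relative cotangent space has dimension `≤ r - 3 |Th|`.

Proof: helper21's generic `m59c_finrank_le` (`M59/C/Present.lean`) with
`Pp := IsStrictOrdinaryAt p`, the local count `hPp` = the BANKED `s56o_final : s56a_LocPOrd_stmt`
(`S56/LocP/Final.lean`), the weights `d ℓ = 3` (`twc_finrank_inv_of_scalar`), and
`twc_frame_coc_loc'` (no `ε`-part at the tame generators ⟹ the cocycle vanishes on `D_ℓ`).
-/

set_option autoImplicit false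
set_option linter.unusedSectionVars false
set_option linter.style.haveILetI false

open Polynomial IsLocalRing ExtCitation Module
open Fermat.Agent.S53 Fermat.Agent.S56 Fermat.Agent.TW

namespace Fermat.Agent.M59

noncomputable section

local notation "GQ" => (AlgebraicClosure ℚ ≃ₐ[ℚ] AlgebraicClosure ℚ)
local notation "Qbar" => AlgebraicClosure ℚ

attribute [local instance] S53.dualNumberAlgebra

/-- **C/Present, cotangent form, strict-ordinary type.** -/
theorem m59mo_finrank_le (𝒪 : Type) [CommRing 𝒪] [IsDomain 𝒪] [IsDiscreteValuationRing 𝒪]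
    [IsAdicComplete (maximalIdeal 𝒪) 𝒪] [Finite (ResidueField 𝒪)]
    (p : ℕ) [Fact p.Prime] (hp2 : p ≠ 2) (hp𝒪 : (p : 𝒪) ∈ maximalIdeal 𝒪)
    (rb : FramedResidual (ResidueField 𝒪)) (hyp : s56a_Hyp p rb.toResidualGaloisRep)
    (S Smin : Finset ℕ) (hpSmin : p ∈ Smin) (hSmin : Smin ⊆ S)
    (hmin : ∀ q : ℕ, q.Prime → q ≠ p →
      (q ∈ Smin ↔ ¬ rb.toResidualGaloisRep.IsUnramifiedAt q))
    (Th : Finset Nat.Primes) (hThS : ∀ ℓ ∈ Th, (ℓ : ℕ) ∈ S) (hThmin : ∀ ℓ ∈ Th, (ℓ : ℕ) ∉ Smin)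
    (hscal : ∀ ℓ ∈ Th, ∀ σ ∈ (primeLocalPlace ℓ).decompositionSubgroup ℚ,
      ∃ c : ResidueField 𝒪, rb σ = Matrix.scalar (Fin 2) c)
    (td : twc_TameData p Th) :
    ∃ r : ℕ, 3 * Th.card ≤ r ∧ ∀ n : ℕ, ∃ qv : Fin r → ℕ, Function.Injective qv ∧
      (∀ i, (qv i).Prime ∧ qv i ∉ S ∧ p ^ (n + 1) ∣ qv i - 1) ∧
      (∀ i, ∀ P : ValuationSubring Qbar, P.LiesOverPrime (qv i) →
        ∀ φ : GQ, P.IsFrobeniusAt φ (qv i) → ∃ α β : ResidueField 𝒪, α ≠ β ∧
          LinearMap.charpoly (rb.toResidualGaloisRep.ρ φ) = (X - C α) * (X - C β)) ∧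
      ∀ (H : twc_HPair 𝒪 rb),
        m59mo_IsTypeO p Smin Th (Finset.univ.image qv) H.r.toGaloisRepAdic →
        ∀ (ι : Type) (z : ι → maximalIdeal H.T),
          (∀ φ : H.T →ₐ[𝒪] DualNumber (ResidueField 𝒪), (∀ i, φ (z i : H.T) = 0) →
            twc_LocNoEps td H φ) →
          Module.finrank (ResidueField H.T) (CotangentSpace H.T ⧸ twc_relW 𝒪 z) ≤
            r - 3 * Th.card := by
  classical
  haveI : CharP (ResidueField 𝒪) p := s56a_charP p hp𝒪
  letI : Algebra (ZMod p) (ResidueField 𝒪) := ZMod.algebra _ p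
  have hsum : ∑ _ℓ ∈ Th, 3 = 3 * Th.card := by
    rw [Finset.sum_const, smul_eq_mul, mul_comm]
  have hrbI := twc_rb_unram rb p Smin hpSmin hmin Th hThmin
  obtain ⟨r, hr, h⟩ := m59c_finrank_le 𝒪 p hp2 hp𝒪 rb hyp
    (fun r => r.toGaloisRepAdic.IsStrictOrdinaryAt p) S Smin hSmin
    (fun _ => s56o_final p hp2 (ResidueField 𝒪) rb) hmin Th hThS hThmin (Or.inl hpSmin)
    (fun _ => 3) (fun ℓ hℓ => le_trans
      (twc_finrank_inv_of_scalar rb _ (hscal ℓ hℓ)) (Nat.le_add_right _ _))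
  rw [hsum] at hr h
  refine ⟨r, hr, fun n => ?_⟩
  obtain ⟨qv, h1, h2, h3, h4⟩ := h n
  refine ⟨qv, h1, h2, h3, fun H hType ι z hz => ?_⟩
  refine h4 H (m59mo_isType_c hType) ι z fun φ hφ ℓ hℓ => ?_
  refine ⟨0, Matrix.trace_zero _ _, fun σ hσ => ?_⟩
  rw [twc_frame_coc_loc' td H φ (hz φ hφ) hrbI ℓ hℓ σ hσ]
  simp

end

end Fermat.Agent.M59
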