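import Fermat.Agent.TW.Def.PatchLvMain4
import Fermat.Agent.M59.LG.AsTwin
import Fermat.Agent.M59.S38g.Ord.CType
import Fermat.Agent.M59.S38g.Ord.CChiSys

/-!
# M59 / box [C + S38g], ordinary mode, cell [C-top-ord] (helper14; prefix `m59mo_`): C/LevelAsm

Twin of helper21's `m59ct_LevelAsm_stmt` / `m59ct_levelAsm` (`M59/S38g/CTop/LevelAsm.lean`) at
`p ∥ N`: `¬ p ∣ N` becomes `p ∣ N` (`N` squarefree), the residual representation is ORDINARY and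
TRES RAMIFIEE at `p` (`m59mo_IsTres`), and the types of the Hecke pairs are the STRICT-ORDINARY ones
(`m59mo_IsTypeO`, from `m59mo_ft_isType_big`, `m59mo_ft_isType_level`, `M59/S38g/Ord/CType.lean`).
Blocks [E] (hypothesis `hB`, same shape) and [A] (helper2's `m59lg_tw2`, `m59lg_x`, which have no
hypothesis on `p` and `N`) are used verbatim; the `χ`-system is `m59mo_la_chiSys`.
-/

set_option autoImplicit false
set_option linter.unusedSectionVars false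
set_option linter.style.haveILetI false

open Polynomial CuspForm IsLocalRing ExtCitation
open Fermat.Agent.S53 Fermat.Agent.S56 Fermat.Agent.JT3
open Fermat.Agent.TW

namespace Fermat.Agent.M59

noncomputable section

local notation "GQ" => (AlgebraicClosure ℚ ≃ₐ[ℚ] AlgebraicClosure ℚ)
local notation "Qbar" => AlgebraicClosure ℚ

attribute [local instance] S53.dualNumberAlgebra

section unip

variable {𝒪 : Type} [CommRing 𝒪] [IsDomain 𝒪] [IsDiscreteValuationRing 𝒪]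
  [IsAdicComplete (maximalIdeal 𝒪) 𝒪] [Finite (ResidueField 𝒪)] [CharZero 𝒪]
  {N : ℕ} [NeZero N] {S : Finset ℕ} {θ : heckeAlgebra N 2 (↑S : Set ℕ) →+* ResidueField 𝒪}
  {B : twe_Base 𝒪 N S θ} {p : ℕ} {Q : Finset ℕ} [NeZero (twe_Nbal N Q ∅)]
  {L : twe_Level B p Q} {ThP : Finset Nat.Primes}
  [NeZero (twe_Nbal N Q (ThP.image fun ℓ : Nat.Primes => (ℓ : ℕ)))]

/-- **unipotent inertia at the hard primes at the unipotent level** (twin of `twc_ft_unip_level`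
without `¬ p ∣ N`: only `ℓ ≠ p` for the hard primes is used). -/
theorem m59mo_ft_unip_level (hp : p.Prime) (hp𝒪 : (p : 𝒪) ∈ maximalIdeal 𝒪)
    (hpS : p ∈ S) (hNS : ∀ ℓ : ℕ, ℓ.Prime → ℓ ∣ N → ℓ ∈ S) (hsq : Squarefree N)
    (hQ : ∀ t ∈ Q, t.Prime ∧ t ∉ S) (hThN : ∀ ℓ ∈ ThP, (ℓ : ℕ) ∣ N)
    (hThp : ∀ ℓ ∈ ThP, (ℓ : ℕ) ≠ p)
    (Bg : twe_Big L (ThP.image fun ℓ : Nat.Primes => (ℓ : ℕ)))
    (hloc : IsLocalHom (Bg.π1 : Bg.T'' →+* L.T'))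
    (r'' : FramedRep Bg.T'') (h : Bg.H''.ρ.IsEquiv r''.toGaloisRepAdic)
    (ℓ : Nat.Primes) (hℓ : ℓ ∈ ThP) :
    (r''.map (Bg.π1 : Bg.T'' →+* L.T') hloc).toGaloisRepAdic.IsUnipotentOnInertiaAt (ℓ : ℕ) := by
  classical
  have hQp : ∀ t ∈ Q, t.Prime := fun t ht => (hQ t ht).1
  have hNS' := twc_ft_hNS (Th := ∅) hNS hQp (by simp)
  have hℓN : (ℓ : ℕ) ∣ N := hThN ℓ hℓ
  have hℓQ : (ℓ : ℕ) ∉ Q := fun h' => (hQ _ h').2 (hNS _ ℓ.2 hℓN)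
  exact twc_fr_level_unip hp hp𝒪 hpS hNS' Bg hloc r'' h (ℓ : ℕ) ℓ.2 (hThp ℓ hℓ)
    (dvd_trans hℓN (twc_fr_N_dvd_Nbal N Q ∅))
    (twc_ft_not_sq_dvd hsq hQp (by simp) ℓ.2 hℓQ (by simp))

end unip

/-- **[LevelAsm], ordinary mode** (`p ∥ N`, `ρ̄` ordinary and très ramifiée at `p`, strict-ordinary
types): twin of `m59ct_LevelAsm_stmt`. -/
def m59mo_LevelAsm_stmt : Prop :=
  ∀ (p : ℕ) [Fact p.Prime], p ≠ 2 →
  ∀ (𝒪 : Type) [CommRing 𝒪] [IsDomain 𝒪] [IsDiscreteValuationRing 𝒪]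
    [IsAdicComplete (maximalIdeal 𝒪) 𝒪] [Finite (ResidueField 𝒪)] [CharZero 𝒪],
    (p : 𝒪) ∈ maximalIdeal 𝒪 →
  ∀ (lam : 𝒪), maximalIdeal 𝒪 = Ideal.span {lam} →
  ∀ (ζ : 𝒪), IsPrimitiveRoot ζ p →
  ∀ (N : ℕ) [NeZero N], Squarefree N → p ∣ N →
  ∀ (S : Finset ℕ), p ∈ S → (∀ ℓ : ℕ, ℓ.Prime → ℓ ∣ N → ℓ ∈ S) →
  ∀ (Smin : Finset ℕ), p ∈ Smin → (∀ q ∈ Smin, q.Prime → q ≠ p → q ∣ N) →
  ∀ (θ : heckeAlgebra N 2 (↑S : Set ℕ) →+* ResidueField 𝒪)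
    (rb : FramedResidual (ResidueField 𝒪)),
    twt_Compat θ rb.toResidualGaloisRep → s56a_Hyp p rb.toResidualGaloisRep →
    (GaloisRepAdic.ofResidualGaloisRep rb.toResidualGaloisRep).IsOrdinaryAt p →
    m59mo_IsTres p rb.toResidualGaloisRep →
    (∀ q : ℕ, q.Prime → q ≠ p →
      (q ∈ Smin ↔ ¬ rb.toResidualGaloisRep.IsUnramifiedAt q)) →
  ∀ (ThP : Finset Nat.Primes),
    (∀ ℓ ∈ ThP, (ℓ : ℕ) ∣ N ∧ (ℓ : ℕ) ∉ Smin ∧ (ℓ : ℕ) % p = 1 ∧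
      twt_FrobScalar rb.toResidualGaloisRep ℓ) →
    (∀ ℓ : Nat.Primes, (ℓ : ℕ) ∣ N → (ℓ : ℕ) ∉ Smin →
      ℓ ∈ ThP ∨ m59m_IsHarmless p rb.toResidualGaloisRep (ℓ : ℕ)) →
  ∀ (td : twc_TameData p ThP), twib_InertiaGen td →
  ∀ (a : Nat.Primes → 𝒪),
    (∀ ℓ ∈ ThP, rb (td.gφ ℓ) = Matrix.scalar (Fin 2) (residue 𝒪 (a ℓ))) →
  ∀ (B : twe_Base 𝒪 N S θ),
    (∀ (Q : Finset ℕ) [NeZero (twe_Nbal N Q ∅)], (∀ t ∈ Q, t ∉ S) → twe_IsTWSet θ p Q →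
      Q.Nonempty →
      ∀ (Th : Finset ℕ) [NeZero (twe_Nbal N Q Th)],
        (∀ ℓ ∈ Th, ℓ.Prime ∧ ℓ ∣ N ∧ ℓ ≠ 2 ∧ ℓ % p = 1) → Th.Nonempty →
        ∃ L : twe_Level B p Q, ∃ Bg : twe_Big L Th, Bg.IsLG2) →
  ∀ (r0 : FramedRep B.T), B.H.ρ.IsEquiv r0.toGaloisRepAdic →
    r0.IsLiftOf rb (ResidueField.map (algebraMap 𝒪 B.T)) →
  ∀ (r : ℕ), 3 * ThP.card ≤ r →
  ∀ (m : ℕ) (qv : Fin r → ℕ), Function.Injective qv →
    (∀ i, (qv i).Prime ∧ qv i ∉ S ∧ p ^ (m + 1) ∣ qv i - 1) →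
    (∀ i, ∀ P : ValuationSubring Qbar, P.LiesOverPrime (qv i) →
      ∀ φ : GQ, P.IsFrobeniusAt φ (qv i) → ∃ α β : ResidueField 𝒪, α ≠ β ∧
        LinearMap.charpoly (rb.toResidualGaloisRep.ρ φ) = (X - C α) * (X - C β)) →
    (∀ (H : twc_HPair 𝒪 rb),
      m59mo_IsTypeO p Smin ThP (Finset.univ.image qv) H.r.toGaloisRepAdic →
      ∀ (ι : Type) (z : ι → maximalIdeal H.T),
        (∀ φ : H.T →ₐ[𝒪] DualNumber (ResidueField 𝒪), (∀ i, φ (z i : H.T) = 0) →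
          twc_LocNoEps td H φ) →
        Module.finrank (ResidueField H.T) (CotangentSpace H.T ⧸ twc_relW 𝒪 z) ≤
          r - 3 * ThP.card) →
  ∀ (q₀ : ↥ThP),
    Nonempty (twc_LvIn2 𝒪 lam r (B.d * 2 ^ r) (r - 3 * ThP.card)
      (↥ThP × Fin 2 × Fin 2 × Fin 2)
      (twb_r8_Junip 𝒪 (Fin (r - 3 * ThP.card) ⊕ Fin (r - 3 * ThP.card)) p
        (fun ℓ : ↥ThP => a ℓ) (fun ℓ : ↥ThP => ((ℓ : Nat.Primes) : ℕ)))
      (twb_r8_Jhash 𝒪 (Fin (r - 3 * ThP.card)) p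
        (fun ℓ : ↥ThP => a ℓ) (fun ℓ : ↥ThP => ((ℓ : Nat.Primes) : ℕ)))
      (twds_a 𝒪 r) (twds_b 𝒪 r (p ^ m)) (twds_b_le_a r (p ^ m)) B.T (twc_j B r)
      (fun i k => (q₀, 0, i, k)) (fun i k => (r0 (td.gσ q₀) - 1) i k))

/-- **C/LevelAsm for the [HARD] machine, ordinary mode.** -/
theorem m59mo_levelAsm : m59mo_LevelAsm_stmt := by
  classical
  intro p _ hp2 𝒪 _ _ _ _ _ _ hp𝒪 lam hlam ζ hζ N _ hsq hpN S hpS hNS Smin hpSmin hSminN' θ rb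
    hcompat hyp hordres htresb hmin ThP hThP hThall td hgen a hφa B hB r0 hr0e hr0l r hr m qv inj hqv
    hfrob h4 q₀
  have hpp : p.Prime := Fact.out
  have hp3 : 3 ≤ p := by have := hpp.two_le; omega
  have hℓp : ∀ ℓ ∈ ThP, ((ℓ : Nat.Primes) : ℕ) ≠ p := by
    intro ℓ hℓ h
    have h1 := (hThP ℓ hℓ).2.2.1
    rw [h, Nat.mod_self] at h1
    exact zero_ne_one h1
  have hTh2' : ∀ ℓ ∈ ThP, ((ℓ : Nat.Primes) : ℕ) ≠ 2 := by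
    intro ℓ hℓ h
    have h1 := (hThP ℓ hℓ).2.2.1
    rw [h, Nat.mod_eq_of_lt (by omega)] at h1
    omega
  haveI : CharP (ResidueField 𝒪) p := s56a_charP p hp𝒪
  obtain ⟨hTW, hQS⟩ := twt_ts_isTWSet θ rb.toResidualGaloisRep hcompat qv hqv hfrob
  have hQmem : ∀ i, qv i ∈ Finset.univ.image qv := fun i =>
    Finset.mem_image.2 ⟨i, Finset.mem_univ _, rfl⟩
  have hQonto : ∀ t ∈ Finset.univ.image qv, ∃ i, qv i = t := fun t ht => by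
    obtain ⟨i, -, hi⟩ := Finset.mem_image.1 ht
    exact ⟨i, hi⟩
  have hQp : ∀ t ∈ Finset.univ.image qv, t.Prime := fun t ht => by
    obtain ⟨i, rfl⟩ := hQonto t ht
    exact (hqv i).1
  have hQ : ∀ t ∈ Finset.univ.image qv, t.Prime ∧ t ∉ S := fun t ht => ⟨hQp t ht, hQS t ht⟩
  have hThN : ∀ ℓ ∈ ThP, (ℓ : ℕ) ∣ N := fun ℓ hℓ => (hThP ℓ hℓ).1
  have hTh := twc_ft_hTh (N := N) hThN
  haveI : NeZero (twe_Nbal N (Finset.univ.image qv) ∅) :=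
    ⟨twc_la_nbal_ne (NeZero.ne N) (fun t ht => (hQp t ht).ne_zero) (by simp)⟩
  haveI : NeZero (twe_Nbal N (Finset.univ.image qv) (ThP.image fun ℓ : Nat.Primes => (ℓ : ℕ))) :=
    ⟨twc_la_nbal_ne (NeZero.ne N) (fun t ht => (hQp t ht).ne_zero)
      (fun ℓ hℓ => (hTh ℓ hℓ).1.ne_zero)⟩
  have hr0 : 0 < r := by
    have h1 : 0 < ThP.card := Finset.card_pos.2 ⟨q₀.1, q₀.2⟩
    omega
  obtain ⟨L, Bg, hBg⟩ := hB (Finset.univ.image qv) hQS hTW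
    ⟨qv ⟨0, hr0⟩, Finset.mem_image.2 ⟨⟨0, hr0⟩, Finset.mem_univ _, rfl⟩⟩
    (ThP.image fun ℓ : Nat.Primes => (ℓ : ℕ)) (fun ℓ hℓ => by
      obtain ⟨ℓ', hℓ', rfl⟩ := Finset.mem_image.1 hℓ
      exact ⟨ℓ'.2, (hThP ℓ' hℓ').1, hTh2' ℓ' hℓ', (hThP ℓ' hℓ').2.2.1⟩)
    ⟨(q₀.1 : ℕ), Finset.mem_image.2 ⟨q₀.1, q₀.2, rfl⟩⟩
  -- the character
  obtain ⟨χ, -, hχprim, hχm, hχlam⟩ := twlg_cm_exists p hp𝒪 ζ hζ
    (ThP.image fun ℓ : Nat.Primes => (ℓ : ℕ)) (fun ℓ hℓ => by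
      obtain ⟨ℓ', hℓ', rfl⟩ := Finset.mem_image.1 hℓ
      exact ⟨ℓ'.2, (hThP ℓ' hℓ').2.2.1⟩)
  -- block [A]
  have hunr : ∀ ℓ : ℕ, ℓ.Prime → ℓ ∉ Smin → ℓ ≠ p → rb.toResidualGaloisRep.IsUnramifiedAt ℓ := by
    intro ℓ hℓ hℓS hℓp
    by_contra hcon
    exact hℓS ((hmin ℓ hℓ hℓp).2 hcon)
  have hunrQ : ∀ t ∈ Finset.univ.image qv, rb.toResidualGaloisRep.IsUnramifiedAt t := by
    intro t ht
    have htp : t ≠ p := fun h => hQS t ht (h ▸ hpS)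
    refine hunr t (hQp t ht) (fun h => ?_) htp
    exact hQS t ht (hNS t (hQp t ht) (hSminN' t h (hQp t ht) htp))
  have hunrTh : ∀ ℓ ∈ ThP.image (fun ℓ : Nat.Primes => (ℓ : ℕ)),
      rb.toResidualGaloisRep.IsUnramifiedAt ℓ := by
    intro ℓ hℓ
    obtain ⟨ℓ', hℓ', rfl⟩ := Finset.mem_image.1 hℓ
    exact hunr _ ℓ'.2 (hThP ℓ' hℓ').2.1 (hℓp ℓ' hℓ')
  have hThsq : ∀ ℓ ∈ ThP.image (fun ℓ : Nat.Primes => (ℓ : ℕ)), ¬ ℓ ^ 2 ∣ N := by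
    intro ℓ hℓ h
    obtain ⟨ℓ', hℓ', rfl⟩ := Finset.mem_image.1 hℓ
    have h1 : IsUnit ((ℓ' : ℕ)) := hsq _ (by rwa [pow_two] at h)
    exact ℓ'.2.one_lt.ne' (Nat.isUnit_iff.mp h1)
  have hfrobQ : ∀ t ∈ Finset.univ.image qv, ∀ P : ValuationSubring Qbar, P.LiesOverPrime t →
      ∀ φ : GQ, P.IsFrobeniusAt φ t → ∃ α β : ResidueField 𝒪, α ≠ β ∧
        LinearMap.charpoly (rb.toResidualGaloisRep.ρ φ) = (X - C α) * (X - C β) := by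
    intro t ht
    obtain ⟨i, rfl⟩ := hQonto t ht
    exact hfrob i
  obtain ⟨u, hu_mem, hu_pow, hu_sub, hsub_u⟩ := m59lg_tw2 hp2 hp𝒪 ζ hζ hpS hNS
    rb.toResidualGaloisRep hcompat hunrQ hQS hTW hfrobQ hTh Bg hBg
  have hX : ∀ r1 : FramedRep Bg.T'', Bg.H''.ρ.IsEquiv r1.toGaloisRepAdic →
      ∀ ℓ : Nat.Primes, ℓ ∈ ThP → ∀ (i j : Fin 2) (y : Bg.Mb),
        (∑ k ∈ Finset.range p, r1 (td.gσ ℓ) ^ k) i j • y ∈
          twc_chiSub (G := twe_Delta p (Finset.univ.image qv)) (Mb := Bg.Mb) χ :=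
    fun r1 hr1 ℓ hℓ => m59lg_x hp2 hp𝒪 hThsq hpS hNS rb.toResidualGaloisRep hcompat hunrTh hQS
      hTW hTh td hgen (fun ℓ' hℓ' => ⟨Finset.mem_image_of_mem _ hℓ', hTh2' ℓ' hℓ',
        (hThP ℓ' hℓ').2.2.1⟩) Bg hBg χ hχprim r1 hr1 ℓ hℓ
  -- the matrix actions
  have hord : ∀ i, p ^ m ∣ twe_ord p (qv i) := fun i =>
    twt_ts_pow_dvd_ord (hqv i).1.one_lt ((pow_dvd_pow p (Nat.le_succ m)).trans (hqv i).2.2)
  obtain ⟨act1, actχ, hcong, hact1u, hactχu, hmod, hzero⟩ :=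
    twc_am_Act 𝒪 lam p hp𝒪 N S θ B (Finset.univ.image qv) L
      (ThP.image fun ℓ : Nat.Primes => (ℓ : ℕ)) Bg r qv hQmem inj hQonto m hord u hu_pow hu_sub
      hsub_u χ (hχlam lam hlam)
  -- the frames
  have hNS' : ∀ ℓ : ℕ, ℓ.Prime → ℓ ∣ twe_Nbal N (Finset.univ.image qv) ∅ →
      ℓ ∈ S ∪ Finset.univ.image qv := twc_ft_hNS (Th := ∅) hNS hQp (by simp)
  have hNS'' : ∀ ℓ : ℕ, ℓ.Prime →
      ℓ ∣ twe_Nbal N (Finset.univ.image qv) (ThP.image fun ℓ : Nat.Primes => (ℓ : ℕ)) →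
      ℓ ∈ S ∪ Finset.univ.image qv := twc_ft_hNS hNS hQp hTh
  obtain ⟨r'', hloc, hr''e, hr''l, hr''0⟩ := twc_fr_big hNS hNS'' Bg rb hcompat r0 hr0e hr0l
  have hπ1s : Function.Surjective Bg.π1 := twc_fr_π1_surjective hNS' Bg
  have hloc1 : IsLocalHom (Bg.π1 : Bg.T'' →+* L.T') := twc_fr_π1_isLocalHom hNS' Bg
  -- the Hecke pairs
  set P2 : twc_HPair 𝒪 rb := twc_hp_ofFramed Bg.H'' hNS'' rb r'' hr''e hr''l with hP2
  set P1 : twc_HPair 𝒪 rb := twc_hp_push P2 L.T' Bg.π1 hπ1s with hP1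
  -- the types
  have hcoverN : ∀ q : ℕ, q.Prime → q ≠ p → q ∣ N →
      q ∈ Smin ∪ ThP.image (fun ℓ : Nat.Primes => (ℓ : ℕ)) ∨
        (rb.toResidualGaloisRep.IsUnramifiedAt q ∧
          m59m_IsHarmless p rb.toResidualGaloisRep q) := by
    intro q hq hqp hqN
    by_cases hqS : q ∈ Smin
    · exact Or.inl (Finset.mem_union_left _ hqS)
    · rcases hThall ⟨q, hq⟩ hqN hqS with h | h
      · exact Or.inl (Finset.mem_union_right _ (Finset.mem_image.2 ⟨⟨q, hq⟩, h, rfl⟩))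
      · exact Or.inr ⟨hunr q hq hqS hqp, h⟩
  have hSminN : ∀ q ∈ Smin, q.Prime → q ≠ p →
      q ∣ N ∧ q ∉ ThP.image (fun ℓ : Nat.Primes => (ℓ : ℕ)) := by
    intro q hq hqpr hqp
    refine ⟨hSminN' q hq hqpr hqp, fun h => ?_⟩
    obtain ⟨ℓ', hℓ', h2⟩ := Finset.mem_image.1 h
    exact (hThP ℓ' hℓ').2.1 (h2 ▸ hq)
  have htype2 : m59mo_IsTypeO p Smin ThP (Finset.univ.image qv) P2.r.toGaloisRepAdic :=
    m59mo_ft_isType_big hp2 hp𝒪 hpN hpS hNS hsq hQ hThN hℓp rb.toResidualGaloisRep hcompat hordres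
      htresb Smin hpSmin hcoverN hSminN Bg r'' hr''e
  have htype1 : m59mo_IsTypeO p Smin ThP (Finset.univ.image qv) P1.r.toGaloisRepAdic :=
    m59mo_ft_isType_level hp2 hp𝒪 hpN hpS hNS hsq hQ hThN hℓp rb.toResidualGaloisRep hcompat hordres
      htresb Smin hpSmin hcoverN hSminN Bg hloc1 r'' hr''e
  have hℓ1 : ∀ ℓ ∈ ThP, ((ℓ : Nat.Primes) : ℕ) % p = 1 := fun ℓ hℓ => (hThP ℓ hℓ).2.2.1
  have hThmin : ∀ ℓ ∈ ThP, ((ℓ : Nat.Primes) : ℕ) ∉ Smin := fun ℓ hℓ => (hThP ℓ hℓ).2.1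
  have hrbI := twc_rb_unram rb p Smin hpSmin hmin ThP hThmin
  have hun : ∀ ℓ ∈ ThP, P1.r.toGaloisRepAdic.IsUnipotentOnInertiaAt ((ℓ : Nat.Primes) : ℕ) :=
    m59mo_ft_unip_level hpp hp𝒪 hpS hNS hsq hQ hThN hℓp Bg hloc1 r'' hr''e
  -- the unipotent system
  have u_mem1 : ∀ i, Bg.π1 (u (qv i) (hQmem i)) - 1 ∈ maximalIdeal P1.T := fun i => by
    have h2 : (Bg.π1 : Bg.T'' →+* L.T') (u (qv i) (hQmem i) - 1) ∈ maximalIdeal L.T' :=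
      map_nonunit (Bg.π1 : Bg.T'' →+* L.T') _ (hu_mem (qv i) (hQmem i))
    rw [RingHom.coe_coe, map_sub, map_one] at h2
    exact h2
  have hact1u' : ∀ i, act1 (Bg.π1 (u (qv i) (hQmem i))) =
      Matrix.scalar (Fin (B.d * 2 ^ r))
        (1 + Ideal.Quotient.mk (twds_b 𝒪 r (p ^ m)) (MvPowerSeries.X i)) := fun i => by
    rw [hact1u i, map_add, map_one]
  set s1 := twc_lm_sys1 hp2 td a P1 hrbI hφa hℓp htype1.1 hun
    (fun i => Ideal.Quotient.mk (twds_b 𝒪 r (p ^ m)) (MvPowerSeries.X i)) (h4 P1 htype1) act1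
    (fun i => Bg.π1 (u (qv i) (hQmem i))) u_mem1 hact1u' with hs1
  have hlam_mem : lam ∈ maximalIdeal 𝒪 := by
    rw [hlam]; exact Ideal.subset_span rfl
  have hd : 0 < B.d * 2 ^ r := Nat.mul_pos B.d_pos (pow_pos (by norm_num) r)
  -- the `χ`-system
  have hχsys : ∃ (sχ : twc_LvSys 𝒪 r (B.d * 2 ^ r) (r - 3 * ThP.card)
      (↥ThP × Fin 2 × Fin 2 × Fin 2) ((↥ThP × Fin 2 × Fin 2 × Fin 2) ⊕ Fin (r - 3 * ThP.card))
      Sum.inl (twb_r8_Jhash 𝒪 (Fin (r - 3 * ThP.card)) p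
        (fun ℓ : ↥ThP => a ℓ) (fun ℓ : ↥ThP => ((ℓ : Nat.Primes) : ℕ)))
      (MvPowerSeries (Fin r) 𝒪 ⧸ twds_b 𝒪 r (p ^ m))
      (fun i => Ideal.Quotient.mk (twds_b 𝒪 r (p ^ m)) (MvPowerSeries.X i)))
      (πχ : P2.T →ₐ[𝒪] sχ.T), Function.Surjective πχ ∧
      (∀ c, (sχ.z c : sχ.T) = πχ (twc_lm_z td a P2 hrbI hφa c)) ∧
      (∀ i, sχ.u i = πχ (u (qv i) (hQmem i))) ∧ ∀ x, sχ.act (πχ x) = actχ x := by
    have hgeom2 : ∀ ℓ ∈ ThP, ∀ i j,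
        actχ ((∑ k ∈ Finset.range p, P2.r (td.gσ ℓ) ^ k) i j) = 0 := by
      intro ℓ hℓ i j
      refine hzero _ fun y => ?_
      exact hX r'' hr''e ℓ hℓ i j y
    haveI : Nontrivial (MvPowerSeries (Fin r) 𝒪 ⧸ twds_b 𝒪 r (p ^ m)) := by
      by_contra hcon
      rw [not_nontrivial_iff_subsingleton] at hcon
      refine twc_la_hnt hlam_mem r (p ^ m) ?_
      rw [Ideal.eq_top_iff_one, Subsingleton.elim (1 : MvPowerSeries (Fin r) 𝒪 ⧸ _) 0]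
      exact Ideal.zero_mem _
    have hactχu' : ∀ i, actχ (u (qv i) (hQmem i)) =
        Matrix.scalar (Fin (B.d * 2 ^ r))
          (1 + Ideal.Quotient.mk (twds_b 𝒪 r (p ^ m)) (MvPowerSeries.X i)) := fun i => by
      rw [hactχu i, map_add, map_one]
    exact m59mo_la_chiSys td a P2 hrbI hφa hℓp hℓ1 hd
      (fun i => Ideal.Quotient.mk (twds_b 𝒪 r (p ^ m)) (MvPowerSeries.X i)) actχ hgeom2 htype2 h4
      (fun i => u (qv i) (hQmem i)) (fun i => hu_mem (qv i) (hQmem i)) hactχu'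
  obtain ⟨sχ, πχ, hπχs, hzχ, huχ, hactχ⟩ := hχsys
  -- the assembly
  refine twc_lvin2_of_two hd (twc_la_hnt hlam_mem r (p ^ m)) (twc_la_hfin hlam p hp𝒪 r m) s1 sχ
    Bg.T'' (Bg.π1 : P2.T →ₐ[𝒪] P1.T) πχ hπ1s hπχs
    (fun c => (twc_lm_z td a P2 hrbI hφa c : P2.T)) ?_ hzχ
    (fun i => u (qv i) (hQmem i)) ?_ huχ ?_ L.π0 ?_ ?_
  · intro c
    exact twc_lm_z_push td a P2 hrbI hφa L.T' Bg.π1 hπ1s c
  · intro i
    rfl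
  · intro x
    have h := hcong x
    rw [← hactχ x] at h
    exact h
  · intro t
    exact hmod t
  · intro i k
    have h1 : r0 (td.gσ q₀) = (r'' (td.gσ q₀)).map
        ((L.π0.comp Bg.π1 : Bg.T'' →ₐ[𝒪] B.T) : Bg.T'' →+* B.T) := by
      rw [← hr''0, FramedRep.map_apply]
    show L.π0 (((r'' (td.gσ q₀)).map Bg.π1 - 1) i k) = _
    rw [h1]
    by_cases hik : i = k
    · subst hik
      simp [Matrix.sub_apply, Matrix.map_apply]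
    · simp [Matrix.sub_apply, Matrix.map_apply, Matrix.one_apply_ne hik]


end

end Fermat.Agent.M59
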