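import Mathlib
import Fermat.Agent.M59.S38g.Big.BigInst2
import Fermat.Agent.M59.EP.Twin.SeamLevelFinal
import Fermat.Agent.M59.S38g.Ord.Seams

/-!
M59 / box [C + S38g], ordinary mode (helper14), prefix `m59mo_`.

`m59mo_m2lg : m59mo_M2LG_stmt`   (the seam of `M59/S38g/Ord/Seams.lean`, PROVED): block [E] for the
machine at ANY squarefree rigid level, `p ∣ N` allowed.  The proof is the one of `m59mb_m2lg`
(`M59/S38g/Big/M2LG.lean`), which never used its hypothesis `¬ p ∣ N`.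
-/

set_option autoImplicit false
set_option linter.unusedSectionVars false
set_option linter.unusedVariables false
set_option linter.overlappingInstances false
set_option linter.style.haveILetI false
set_option synthInstance.maxHeartbeats 400000
set_option maxHeartbeats 1000000

noncomputable section

namespace Fermat.Agent.M59

open IsLocalRing Polynomial CuspForm Fermat.Agent.JT3 Fermat.Agent.LR CongruenceSubgroup
open Fermat.Agent.S56 Fermat.Agent.TW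
open scoped MatrixGroups

/-- **(M2) with the [E] → [A] seam for `p ∈ {3, 5}` at a rigid squarefree level, `p ∣ N` allowed.** -/
theorem m59mo_m2lg : m59mo_M2LG_stmt := by
  intro p _ hp 𝒪 _ _ _ _ _ _ hp𝒪 N _ hsq hrig S hpS hNS θ ρbar hcompat hirr
  have hp2 : p ≠ 2 := by rcases hp with rfl | rfl <;> norm_num
  obtain ⟨B, hfull⟩ := m59epw_dt_M1F p hp2 𝒪 hp𝒪 N S hpS hNS θ ρbar hcompat hirr
  refine ⟨B, fun Q _ hQS hTW _ Th _ hTh4 _ => ?_⟩
  have hTh : ∀ ℓ ∈ Th, ℓ.Prime ∧ ℓ ∣ N := fun ℓ hℓ => ⟨(hTh4 ℓ hℓ).1, (hTh4 ℓ hℓ).2.1⟩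
  have hQp : ∀ t ∈ Q, t.Prime := fun t ht => (hTW t ht).1
  have hThp : ∀ t ∈ Th, t.Prime := fun t ht => (hTh t ht).1
  obtain ⟨θ', θ'_eq, -, B', hfull'⟩ := m59epw_slf_base hp2 hp𝒪 hpS hNS ρbar hcompat hirr Q hQS hTW
  obtain ⟨θ'', θ''_eq, hc'', B'', hfull''⟩ := m59mb_sbi_base hp2 hp𝒪 hpS hNS ρbar hcompat hirr Q
    hQS hTW Th hTh
  have hM0 : N * ∏ t ∈ Q, t ≠ 0 :=
    mul_ne_zero (NeZero.ne N) (Finset.prod_ne_zero_iff.2 fun t ht => (hQp t ht).ne_zero)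
  have : NeZero (N * ∏ t ∈ Q, t) := ⟨hM0⟩
  have hM : N * ∏ t ∈ Q, t = N * ∏ t ∈ Q, t := rfl
  have hQM := twe_sli_dvd_M hM
  have hThM := twe_sbi_dvd_M_Th (Q := Q) hTh hM
  have hodd : Odd p := (Fact.out : p.Prime).odd_of_ne_two hp2
  obtain ⟨F''⟩ := twe_sbi_exists_frame (p := p) (N := N) (S := S) hodd hM hQp hQM hThp hThM
  obtain ⟨a'', ha''⟩ := twe_slf_exists_lift θ''
  exact ⟨_, (m59mb_sbi_data hp2 hp𝒪 hrig hsq hpS hNS ρbar hcompat hirr B hfull Q hQS hTW Th hTh θ'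
      θ'_eq B' hfull' θ'' θ''_eq hc'' B'' hfull'' hM hQp hQM hThp hThM F'' a'' ha'').toBig,
    m59mb_sbi_isLG2 hp2 hp𝒪 hrig hsq hpS hNS ρbar hcompat hirr B hfull Q hQS hTW Th hTh θ'
      θ'_eq B' hfull' θ'' θ''_eq hc'' B'' hfull'' hM hQp hQM hThp hThM F'' a'' ha''⟩

end Fermat.Agent.M59
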