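import Mathlib
import Fermat.Agent.M59.Mazur.HardOfT
import Fermat.Agent.M59.S38g.MachineClosed
import Fermat.Agent.M59.S38g.Ord.Entry
import Fermat.Agent.M59.S38g.Ord.M2LG

/-!
M59 / box [C + S38g], cell [HARD]: THE TOP WIRING WITH THE ORDINARY MODE AT A RIGID LEVEL
(helper14, box owner).  Prefix `m59mo_`.  On top of helper16's `M59/Mazur/HardOfT.lean` (read-off in
the Tate context, `m59mz_ReadOffT_stmt`).

* `m59mo_OrdLower_stmt Peu` : the lowering at a hard prime `q` in the ordinary mode (`p ∥ N`, `W`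
  multiplicative at `p`, `ρ̄` not peu ramifiée, every unramified prime of the level hard).
* `m59mo_ordLower_of` : from `m59mo_MachOrdR_stmt Peu` (rigid level, harmless primes allowed), the
  read-off, [MAZUR], [ENTRY-ext] and the rigidifier — at a non-rigid level (`p = 3`) the trip
  `(N, S) → (N r, S ∪ {r}) → (N r / q, S ∪ {r}) → (N / q, S ∪ {r}) → (N / q, S)` of the flat mode.
* `m59mo_hard_of_lowers` : [HARD] from [LOW-core] and the two lowerings.
* **`m59mo_hard_of5 (Peu) : m59e_LowCore_stmt Peu → m59mo_TresDict_stmt Peu → m59mo_PatchLv_stmt →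
    m59mz_GeoPowThreeEven_stmt → m59m_Mazur_stmt → m59e_EntryExt_stmt → m59m_Hard_stmt`**
  = [HARD] from its open leaves: [LOW-core], [TRES-DICT], [C-top-ord], [GEO-3e,pow], [MAZUR],
  [ENTRY-ext] (closed: `m59lg_entryExt`).  `m59m_MachOrd_stmt Peu` is NOT used any more.
-/

set_option autoImplicit false
set_option linter.style.haveILetI false
set_option linter.unusedSectionVars false
set_option linter.unusedVariables false
set_option synthInstance.maxHeartbeats 400000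
set_option maxHeartbeats 1000000

open Polynomial CuspForm IsLocalRing WeierstrassCurve Fermat.Agent.TW Fermat.Agent.JT3

namespace Fermat.Agent.M59

/-- the common Prop of the ordinary-mode lowering (`p ∥ N`) at a hard prime. -/
def m59mo_OrdLower_stmt (Peu : m59e_PeuPred) : Prop :=
  ∀ (p : ℕ) [Fact p.Prime], p = 3 ∨ p = 5 → ∀ W : WeierstrassCurve ℤ, W.Δ ≠ 0 →
    W.IsSemistableModel →
  ∀ (𝒪 : Type) [CommRing 𝒪] [IsDomain 𝒪] [IsDiscreteValuationRing 𝒪]
    [IsAdicComplete (maximalIdeal 𝒪) 𝒪] [Finite (ResidueField 𝒪)] [CharZero 𝒪],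
    (p : 𝒪) ∈ maximalIdeal 𝒪 →
  ∀ ρ : GaloisRepAdic 𝒪, m59e_IsTate p W ρ →
  ∀ (S : Finset ℕ) (N q : ℕ), m59e_IsBadSet W p S → 2 ∈ S → Squarefree N →
    (∀ ℓ : ℕ, ℓ.Prime → ℓ ∣ N → ℓ ∈ S) → q.Prime → q ≠ p → q ∣ N →
    p ∣ N → ¬ W.IsGoodPrimeFor p →
    ¬ Peu (ResidueField 𝒪) ρ.residual p →
    ρ.residual.IsUnramifiedAt q → m59m_IsHard p ρ.residual q →
    (∀ ℓ : ℕ, ℓ.Prime → ℓ ≠ p → ℓ ∣ N → ρ.residual.IsUnramifiedAt ℓ →
      m59m_IsHard p ρ.residual ℓ) →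
    m59e_Occ p W S N → m59e_Occ p W S (N / q)

/-- **ordinary-mode lowering at a hard prime**, rigid or not. -/
theorem m59mo_ordLower_of (Peu : m59e_PeuPred) (hMo : m59mo_MachOrdR_stmt Peu)
    (hR : m59mz_ReadOffT_stmt) (hMz : m59m_Mazur_stmt) (hE : m59e_EntryExt_stmt)
    (hRg : m59m_Rigidifier_stmt) : m59mo_OrdLower_stmt Peu := by
  intro p _ hp W hΔ hW 𝒪 _ _ _ _ _ _ hp𝒪 ρ hT S N q hS h2S hsq hNS hq hqp hqN hpN hbad hpeu hunr
    hhard hall hocc
  have hq2 : q ≠ 2 := m59m_hard_ne_two hp hhard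
  by_cases hrig : m59ep_Rigid p N
  · have hlift := hMo p hp W hΔ hW 𝒪 hp𝒪 ρ hT S N q hS h2S hsq hNS hq hqp hqN hpN hbad hrig hpeu
      hunr hhard (fun ℓ hℓ hℓp hℓN hu => Or.inl (hall ℓ hℓ hℓp hℓN hu)) hocc
    exact hR p hp W hΔ hW 𝒪 hp𝒪 ρ hT S N q hS h2S hsq hNS hq hqp hq2 hqN
      (fun hg => absurd hg hbad) hlift
  · -- `p = 3` and the level has no prime `≡ 2 mod 3`
    have hp3 : p = 3 := by
      by_contra h
      exact hrig (fun h3 => absurd h3 h)
    subst hp3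
    obtain ⟨r, hr, hrS, hr3, har⟩ := hRg W hΔ hW 𝒪 hp𝒪 ρ hT S
    have h3prime : Nat.Prime 3 := by norm_num
    have hrN : ¬ r ∣ N := fun h => hrS (hNS r hr h)
    have hr3' : r ≠ 3 := by rintro rfl; omega
    have hrgood : W.IsGoodPrimeFor r := by
      by_contra hb
      exact hrS (hS.2 r hr hb)
    have hSS' : S ⊆ insert r S := Finset.subset_insert r S
    have hS' : m59e_IsBadSet W 3 (insert r S) :=
      ⟨hSS' hS.1, fun ℓ hℓ hb => hSS' (hS.2 ℓ hℓ hb)⟩
    have h2S' : 2 ∈ insert r S := hSS' h2S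
    have hNpos : 0 < N := Nat.pos_of_ne_zero hsq.ne_zero
    have hcop : Nat.Coprime N r := ((Nat.Prime.coprime_iff_not_dvd hr).mpr hrN).symm
    have hsq' : Squarefree (N * r) :=
      (Nat.squarefree_mul_iff).mpr ⟨hcop, hsq, hr.squarefree⟩
    have hNS' : ∀ ℓ : ℕ, ℓ.Prime → ℓ ∣ N * r → ℓ ∈ insert r S := by
      intro ℓ hℓ hd
      rcases (Nat.Prime.dvd_mul hℓ).mp hd with h | h
      · exact hSS' (hNS ℓ hℓ h)
      · rw [(Nat.prime_dvd_prime_iff_eq hℓ hr).mp h]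
        exact Finset.mem_insert_self r S
    have hocc' : m59e_Occ 3 W (insert r S) (N * r) :=
      m59m_occ_mono2 3 W hSS' (Dvd.intro r rfl) (Nat.mul_pos hNpos hr.pos) hNS' hocc
    have hqN' : q ∣ N * r := Dvd.dvd.mul_right hqN r
    have h3N' : 3 ∣ N * r := Dvd.dvd.mul_right hpN r
    have hrig' : m59ep_Rigid 3 (N * r) := fun _ => ⟨r, hr, Dvd.intro_left N rfl, hr3⟩
    have hall' : ∀ ℓ : ℕ, ℓ.Prime → ℓ ≠ 3 → ℓ ∣ N * r → ρ.residual.IsUnramifiedAt ℓ →
        m59m_IsHard 3 ρ.residual ℓ ∨ m59m_IsHarmless 3 ρ.residual ℓ := by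
      intro ℓ hℓ hℓp hd hu
      rcases (Nat.Prime.dvd_mul hℓ).mp hd with h | h
      · exact Or.inl (hall ℓ hℓ hℓp h hu)
      · have hℓr : ℓ = r := (Nat.prime_dvd_prime_iff_eq hℓ hr).mp h
        subst hℓr
        exact Or.inr (m59m_harmless_of_rigidifier hp𝒪 hT hℓ hrgood hr3 har)
    have hlift := hMo 3 hp W hΔ hW 𝒪 hp𝒪 ρ hT (insert r S) (N * r) q hS' h2S' hsq' hNS' hq hqp
      hqN' h3N' hbad hrig' hpeu hunr hhard hall' hocc'
    have hocc2 : m59e_Occ 3 W (insert r S) (N * r / q) :=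
      hR 3 hp W hΔ hW 𝒪 hp𝒪 ρ hT (insert r S) (N * r) q hS' h2S' hsq' hNS' hq hqp hq2 hqN'
        (fun hg => absurd hg hbad) hlift
    have hdiv : N * r / q = N / q * r := by
      obtain ⟨c, hc⟩ := hqN
      rw [hc, mul_assoc, Nat.mul_div_cancel_left _ hq.pos, Nat.mul_div_cancel_left _ hq.pos]
    rw [hdiv] at hocc2
    -- [MAZUR] at the non-hard `r`
    have hNq : N / q ∣ N := Nat.div_dvd_of_dvd hqN
    have hdvd2 : N / q * r ∣ N * r := Nat.mul_dvd_mul_right hNq r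
    have hsq2 : Squarefree (N / q * r) := hsq'.squarefree_of_dvd hdvd2
    have hNS2 : ∀ ℓ : ℕ, ℓ.Prime → ℓ ∣ N / q * r → ℓ ∈ insert r S := fun ℓ hℓ hd =>
      hNS' ℓ hℓ (dvd_trans hd hdvd2)
    have hnothard : ¬ m59m_IsHard 3 ρ.residual r := by
      intro h
      have := h.1
      omega
    have hocc3 : m59e_Occ 3 W (insert r S) (N / q * r / r) :=
      hMz 3 hp W hΔ hW 𝒪 hp𝒪 ρ hT (insert r S) (N / q * r) r hS' h2S' hsq2 hNS2 hr hr3'
        (Dvd.intro_left _ rfl) (fun hg => absurd hg hbad)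
        (m59m_residual_unram (hT.unram r hr hr3' hrgood)) hnothard hocc2
    rw [Nat.mul_div_cancel _ hr.pos] at hocc3
    -- back to `S`: [ENTRY-ext]
    have hNqpos : 0 < N / q := Nat.div_pos (Nat.le_of_dvd hNpos hqN) hq.pos
    haveI : NeZero (N / q) := ⟨hNqpos.ne'⟩
    have hNSq : ∀ ℓ : ℕ, ℓ.Prime → ℓ ∣ N / q → ℓ ∈ S := fun ℓ hℓ hd =>
      hNS ℓ hℓ (dvd_trans hd hNq)
    obtain ⟨θ₀, hc, -⟩ := hE 3 hp W hΔ hW 𝒪 hp𝒪 ρ hT (insert r S) S (N / q) hS'
      (hsq.squarefree_of_dvd hNq) hSS' hS.1 hNSq hocc3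
    haveI : CharP (ResidueField 𝒪) 3 := m59m_charP_residue 3 hp𝒪
    exact ⟨inferInstance, ResidueField 𝒪, inferInstance, inferInstance, θ₀,
      m59m_eig_of_compat hT hS θ₀ hc⟩

/-- **[HARD] from [LOW-core] and the two lowerings** (twin of `m59mz_hard_of_flatLower`). -/
theorem m59mo_hard_of_lowers (Peu : m59e_PeuPred) (hLC : m59e_LowCore_stmt Peu)
    (hFL : m59m_FlatLower_stmt) (hOL : m59mo_OrdLower_stmt Peu) : m59m_Hard_stmt := by
  intro p _ hp W hΔ hW 𝒪 _ _ _ _ _ _ hp𝒪 ρ hT S N q hS h2S hsq hNS hq hqp hqN hgood hunr hhard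
    hall hocc
  have hNpos : 0 < N := Nat.pos_of_ne_zero hsq.ne_zero
  by_cases hpN : p ∣ N
  · have hbad : ¬ W.IsGoodPrimeFor p := fun hg => hgood hg hpN
    by_cases hoccp : m59e_Occ p W S (N / p)
    · -- flat mode at level `N / p`, then back up
      have hpp : p.Prime := Fact.out
      have hdiv : N / p ∣ N := Nat.div_dvd_of_dvd hpN
      have hsq' : Squarefree (N / p) := hsq.squarefree_of_dvd hdiv
      have hNS' : ∀ r : ℕ, r.Prime → r ∣ N / p → r ∈ S := fun r hr hrd =>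
        hNS r hr (dvd_trans hrd hdiv)
      have hqN' : q ∣ N / p := by
        have h1 : q ∣ p * (N / p) := by rwa [Nat.mul_div_cancel' hpN]
        rcases (Nat.Prime.dvd_mul hq).mp h1 with h | h
        · exact absurd ((Nat.prime_dvd_prime_iff_eq hq hpp).mp h) hqp
        · exact h
      have hpN' : ¬ p ∣ N / p := by
        intro h
        obtain ⟨c, hc⟩ := h
        have h1 : N = p * (N / p) := (Nat.mul_div_cancel' hpN).symm
        have h2 : p * p ∣ N := ⟨c, by rw [h1, hc]; ring⟩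
        exact hpp.one_lt.ne' (Nat.isUnit_iff.mp (hsq p h2))
      have hocc2 : m59e_Occ p W S (N / p / q) :=
        hFL p hp W hΔ hW 𝒪 hp𝒪 ρ hT S (N / p) q hS h2S hsq' hNS' hq hqp hqN' hpN'
          hunr hhard (fun ℓ hℓ hℓp hℓd => hall ℓ hℓ hℓp (dvd_trans hℓd hdiv)) hoccp
      have hdiv2 : N / p / q ∣ N / q := by
        rw [Nat.div_div_eq_div_mul, mul_comm, ← Nat.div_div_eq_div_mul]
        exact Nat.div_dvd_of_dvd (by
          have h1 : p ∣ q * (N / q) := by rwa [Nat.mul_div_cancel' hqN]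
          rcases (Nat.Prime.dvd_mul hpp).mp h1 with h | h
          · exact absurd ((Nat.prime_dvd_prime_iff_eq hpp hq).mp h).symm hqp
          · exact h)
      have hNq : N / q ∣ N := Nat.div_dvd_of_dvd hqN
      exact m59e_occ_mono p W S hdiv2 (Nat.div_pos (Nat.le_of_dvd hNpos hqN) hq.pos)
        (fun r hr hrd => hNS r hr (dvd_trans hrd hNq)) hocc2
    · -- every form is `p`-new: [LOW-core] in contrapositive, then the ordinary mode
      have hpeu : ¬ Peu (ResidueField 𝒪) ρ.residual p := fun hP =>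
        hoccp (hLC p hp W hΔ hW 𝒪 hp𝒪 ρ hT S N hS h2S hsq hNS hpN hP hocc)
      exact hOL p hp W hΔ hW 𝒪 hp𝒪 ρ hT S N q hS h2S hsq hNS hq hqp hqN hpN hbad hpeu hunr hhard
        hall hocc
  · exact hFL p hp W hΔ hW 𝒪 hp𝒪 ρ hT S N q hS h2S hsq hNS hq hqp hqN hpN hunr hhard hall hocc

/-- **[HARD], fifth wiring**: from [LOW-core], [TRES-DICT], [C-top-ord] (`m59mo_PatchLv_stmt`), the
even-level cells of the read-off at `p = 3`, [MAZUR] and [ENTRY-ext]. -/
theorem m59mo_hard_of5 (Peu : m59e_PeuPred) (hLC : m59e_LowCore_stmt Peu)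
    (hD : m59mo_TresDict_stmt Peu) (hPL : m59mo_PatchLv_stmt)
    (hG3 : m59mz_GeoPowThreeEven_stmt) (hMz : m59m_Mazur_stmt) (hE : m59e_EntryExt_stmt) :
    m59m_Hard_stmt := by
  have hR : m59mz_ReadOffT_stmt :=
    m59mz_readoffT_of (m59mz_readoffE_of (m59mz_geoPowOdd_of hG3)) hMz
  have hFL : m59m_FlatLower_stmt :=
    m59mz_flatLower_of (m59m_machFlatR_of3 hE) hR hMz hE m59m_rigidifier
  have hMo : m59mo_MachOrdR_stmt Peu :=
    m59mo_machOrdR_of Peu hE m59m_ramN hD (m59mo_machine_of_lvStmt hPL)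
  exact m59mo_hard_of_lowers Peu hLC hFL
    (m59mo_ordLower_of Peu hMo hR hMz hE m59m_rigidifier)

end Fermat.Agent.M59
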